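import Fermat.Agent.S36.StepA.Near
import Fermat.Agent.GAL.Hecke.KummerNorm
import Fermat.Agent.S24.PlaceBasic

/-!
# S48 / ES1 : the abstract Eichler-Shimura relation with diamond operators

`F₀ ≤ ℚ((q))`, `F = laurentBaseChange Kbar F₀`.  A `HeckePair F p` consists of an automorphism
`D` (`= ⟨p⟩`) and a multiplicative map `N` (`= N_p`) of `F` with
`(N x)(q^p) = (D x)(q^{p²}) ∏_{i<p} x(ζ^i q)`, `D` commuting with the Galois action on coefficients
and `N` preserving Kummer units.  On `V = KV Kbar F m`: `R = KV.map D`, `T = KV.map N` commute with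
`G_ℚ`; for a place `A` of `Kbar` over `p` such that every nonzero element of `F` is `Normable`
(constant times a Gauss unit) and `InjNear` holds (a Kummer unit which is a constant times a Gauss
`1`-unit is an `m`-th power): inertia acts trivially and `σ² - T σ + p R = 0` for Frobenius
elements `σ`.  The Gauss calculus is `S36/StepA/Near.lean`.
-/

set_option autoImplicit false

noncomputable section

namespace Fermat.Agent.S48.ES1

open ModularCurve AlgebraicCurve Fermat.Agent.S24 Fermat.Agent.GAL Fermat.Agent.GAL.Gauss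
  Fermat.Agent.S36.StepA

/-- The pair `(⟨p⟩, N_p)` on a subfield `F` of `Kbar((q))`. -/
structure HeckePair (F : IntermediateField Kbar (LaurentSeries Kbar)) (p : ℕ) [NeZero p] where
  /-- the diamond operator `⟨p⟩` -/
  D : F ≃ₐ[Kbar] F
  /-- the multiplicative Hecke operator `N_p` -/
  N : F →* F
  D_gal : ∀ (s : Kbar ≃ₐ[ℚ] Kbar) (x : F)
    (hx : coeffMap (s : Kbar →+* Kbar) (x : LaurentSeries Kbar) ∈ F),
    ((D ⟨_, hx⟩ : F) : LaurentSeries Kbar) =
      coeffMap (s : Kbar →+* Kbar) ((D x : F) : LaurentSeries Kbar)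
  N_formula : ∀ (ζ : Kbar) (hζ : IsPrimitiveRoot ζ p) (x : F),
    qExpand Kbar p ((N x : F) : LaurentSeries Kbar) =
      qExpand Kbar p (qExpand Kbar p ((D x : F) : LaurentSeries Kbar)) *
        ∏ i ∈ Finset.range p, twist (ζ ^ i) (pow_ne_zero _ (hζ.ne_zero (NeZero.ne p)))
          (x : LaurentSeries Kbar)
  N_kummer : ∀ (m : ℕ) (u : Fˣ), u ∈ kummerUnits Kbar F m →
    Units.map N u ∈ kummerUnits Kbar F m

/-- **NORM** (from IGUSA1): every nonzero element of `F` is a constant times a Gauss unit. -/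
def NormableOn (F : IntermediateField Kbar (LaurentSeries Kbar)) (A : ValuationSubring Kbar) :
    Prop :=
  ∀ x : F, x ≠ 0 → Normable A (x : LaurentSeries Kbar)

/-- **INJ** (from IGUSA1): a Kummer unit which is a constant times a Gauss `1`-unit is an `m`-th
power. -/
def InjNear (F : IntermediateField Kbar (LaurentSeries Kbar)) (m : ℕ) (A : ValuationSubring Kbar) :
    Prop :=
  ∀ u : Fˣ, u ∈ kummerUnits Kbar F m → Near1 A (((u : F)) : LaurentSeries Kbar) →
    ∃ y : Fˣ, y ^ m = u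


/-! ### complements to the Gauss calculus -/

theorem qExpand_C (d : ℕ) [NeZero d] (c : Kbar) :
    qExpand Kbar d (HahnSeries.C c) = HahnSeries.C c := by
  rw [HahnSeries.C_apply, qExpand_single, mul_zero]

/-- `Near1` descends along `t ↦ t^d`. -/
theorem near1_of_qExpand {A : ValuationSubring Kbar} (d : ℕ) [NeZero d] {s : LaurentSeries Kbar}
    (h : Near1 A (qExpand Kbar d s)) : Near1 A s := by
  obtain ⟨c, hc, hmem, hres⟩ := h
  have e : HahnSeries.C c * qExpand Kbar d s = qExpand Kbar d (HahnSeries.C c * s) := by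
    rw [map_mul, qExpand_C]
  have hmem' : qExpand Kbar d (HahnSeries.C c * s) ∈ gRing A := e ▸ hmem
  have hmem2 : HahnSeries.C c * s ∈ gRing A := DR.Conc.mem_gRing_of_qExpand A d hmem'
  refine ⟨c, hc, hmem2, ?_⟩
  have h1 := DR.Conc.gRes_qExpand A d hmem2
  have h2 : gRes A ⟨qExpand Kbar d (HahnSeries.C c * s), DR.Conc.qExpand_mem_gRing A d hmem2⟩ = 1 := by
    rw [← hres]
    congr 1
    exact Subtype.ext e.symm
  rw [h2] at h1
  apply qExpand_injective (R := IsLocalRing.ResidueField A) (N := d)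
  rw [← h1, map_one]

theorem coeffMap_twist' (s : Kbar ≃ₐ[ℚ] Kbar) {c : Kbar} (hc : c ≠ 0) (x : LaurentSeries Kbar) :
    coeffMap (s : Kbar →+* Kbar) (twist c hc x) =
      twist (s c) ((map_ne_zero s).2 hc) (coeffMap (s : Kbar →+* Kbar) x) := by
  ext n
  rw [coeffMap_coeff, twist_coeff, twist_coeff, coeffMap_coeff, map_mul, map_zpow₀]
  rfl

theorem twist_congr {c c' : Kbar} (h : c = c') (hc : c ≠ 0) (hc' : c' ≠ 0)
    (x : LaurentSeries Kbar) : twist c hc x = twist c' hc' x := by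
  subst h; rfl

section Main

variable {F₀ : IntermediateField ℚ (LaurentSeries ℚ)} {p : ℕ} [NeZero p] {m : ℕ}

/-- the Galois conjugate of a Kummer unit. -/
def conj (σ : Kbar ≃ₐ[ℚ] Kbar) (u : kummerUnits Kbar (laurentBaseChange Kbar F₀) m) :
    kummerUnits Kbar (laurentBaseChange Kbar F₀) m :=
  kummerMap (semilinearUnits (arithmeticGalois (L := Kbar) F₀ σ)) (semilinearUnits_mem _) u

theorem smul_mk (σ : Kbar ≃ₐ[ℚ] Kbar) (u : kummerUnits Kbar (laurentBaseChange Kbar F₀) m) :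
    σ • KV.mk u = KV.mk (conj σ u) := rfl

theorem coe_conj (σ : Kbar ≃ₐ[ℚ] Kbar) (u : kummerUnits Kbar (laurentBaseChange Kbar F₀) m) :
    (((conj σ u : (laurentBaseChange Kbar F₀)ˣ) : laurentBaseChange Kbar F₀) :
      LaurentSeries Kbar) =
      coeffMap (σ : Kbar →+* Kbar)
        (((u : (laurentBaseChange Kbar F₀)ˣ) : laurentBaseChange Kbar F₀) : LaurentSeries Kbar) :=
  rfl

theorem coe_ne_zero (u : kummerUnits Kbar (laurentBaseChange Kbar F₀) m) :
    (((u : (laurentBaseChange Kbar F₀)ˣ) : laurentBaseChange Kbar F₀) : LaurentSeries Kbar) ≠ 0 :=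
  fun h => (u : (laurentBaseChange Kbar F₀)ˣ).ne_zero (Subtype.ext h)

namespace HeckePair

variable (P : HeckePair (laurentBaseChange Kbar F₀) p)

theorem D_kummer (u : (laurentBaseChange Kbar F₀)ˣ)
    (hu : u ∈ kummerUnits Kbar (laurentBaseChange Kbar F₀) m) :
    Units.map ((P.D : laurentBaseChange Kbar F₀ →ₐ[Kbar] laurentBaseChange Kbar F₀) :
      laurentBaseChange Kbar F₀ →* laurentBaseChange Kbar F₀) u ∈
      kummerUnits Kbar (laurentBaseChange Kbar F₀) m :=
  Hecke.map_mem_kummerUnits (P.D : laurentBaseChange Kbar F₀ →ₐ[Kbar] laurentBaseChange Kbar F₀)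
    (RingHom.IsIntegral.of_finite (RingHom.Finite.of_surjective _ P.D.surjective)) hu

/-- `R = ⟨p⟩` on the Kummer model. -/
def R (m : ℕ) : KV Kbar (laurentBaseChange Kbar F₀) m →+ KV Kbar (laurentBaseChange Kbar F₀) m :=
  KV.map _ (fun u hu => P.D_kummer u hu)

/-- `T = T_p` on the Kummer model. -/
def T (m : ℕ) : KV Kbar (laurentBaseChange Kbar F₀) m →+ KV Kbar (laurentBaseChange Kbar F₀) m :=
  KV.map (Units.map P.N) (P.N_kummer m)

theorem D_conj (σ : Kbar ≃ₐ[ℚ] Kbar) (x : laurentBaseChange Kbar F₀) :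
    P.D (arithmeticRingAut F₀ σ x) = arithmeticRingAut F₀ σ (P.D x) := by
  apply Subtype.ext
  rw [coe_arithmeticRingAut_apply]
  exact P.D_gal σ x (arithmeticRingAut F₀ σ x).2

theorem N_conj (hp : p.Prime) (σ : Kbar ≃ₐ[ℚ] Kbar) (x : laurentBaseChange Kbar F₀) :
    P.N (arithmeticRingAut F₀ σ x) = arithmeticRingAut F₀ σ (P.N x) := by
  obtain ⟨ζ, hζ⟩ : ∃ ζ : Kbar, IsPrimitiveRoot ζ p :=
    HasEnoughRootsOfUnity.exists_primitiveRoot Kbar p
  have hζσ : IsPrimitiveRoot (σ ζ) p := hζ.map_of_injective (f := σ) σ.injective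
  apply Subtype.ext
  apply qExpand_injective (R := Kbar) (N := p)
  rw [P.N_formula _ hζσ, coe_arithmeticRingAut_apply, coe_arithmeticRingAut_apply,
    ← coeffMap_qExpand, P.N_formula _ hζ,
    map_mul, map_prod, coeffMap_qExpand, coeffMap_qExpand, P.D_conj, coe_arithmeticRingAut_apply]
  congr 1
  refine Finset.prod_congr rfl fun i _ => ?_
  rw [coeffMap_twist']
  exact twist_congr (map_pow σ ζ i).symm _ _ _

theorem R_smul (σ : Kbar ≃ₐ[ℚ] Kbar) (x : KV Kbar (laurentBaseChange Kbar F₀) m) :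
    P.R m (σ • x) = σ • P.R m x := by
  obtain ⟨u, rfl⟩ := KV.mk_surjective x
  rw [smul_mk, R, KV.map_mk, KV.map_mk, smul_mk]
  congr 1
  apply Subtype.ext
  apply Units.ext
  exact P.D_conj σ _

theorem T_smul (hp : p.Prime) (σ : Kbar ≃ₐ[ℚ] Kbar)
    (x : KV Kbar (laurentBaseChange Kbar F₀) m) : P.T m (σ • x) = σ • P.T m x := by
  obtain ⟨u, rfl⟩ := KV.mk_surjective x
  rw [smul_mk, T, KV.map_mk, KV.map_mk, smul_mk]
  congr 1
  apply Subtype.ext
  apply Units.ext
  exact P.N_conj hp σ _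

end HeckePair

/-- vanishing criterion. -/
theorem mk_eq_zero_of_near1 {A : ValuationSubring Kbar}
    (hinj : InjNear (laurentBaseChange Kbar F₀) m A)
    (u : kummerUnits Kbar (laurentBaseChange Kbar F₀) m)
    (h : Near1 A (((u : (laurentBaseChange Kbar F₀)ˣ) : laurentBaseChange Kbar F₀) :
      LaurentSeries Kbar)) : KV.mk u = 0 :=
  (KV.mk_eq_zero_iff u).2 (hinj u u.2 h)

/-- **Unramifiedness.** -/
theorem inertia_smul {A : ValuationSubring Kbar}
    (hnorm : NormableOn (laurentBaseChange Kbar F₀) A)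
    (hinj : InjNear (laurentBaseChange Kbar F₀) m A)
    (σ : Kbar ≃ₐ[ℚ] Kbar) (hσ : σ ∈ A.inertiaSubgroupIn ℚ)
    (x : KV Kbar (laurentBaseChange Kbar F₀) m) : σ • x = x := by
  obtain ⟨u, rfl⟩ := KV.mk_surjective x
  rw [← sub_eq_zero, smul_mk, sub_eq_add_neg, ← KV.mk_inv, ← KV.mk_mul]
  apply mk_eq_zero_of_near1 hinj
  have h := near1_inertia_div (hnorm _ (u : (laurentBaseChange Kbar F₀)ˣ).ne_zero) σ hσ
  rw [Subgroup.coe_mul, Units.val_mul, Subgroup.coe_inv, Units.val_inv_eq_inv_val,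
    IntermediateField.coe_mul, IntermediateField.coe_inv, coe_conj, ← div_eq_mul_inv]
  exact h

/-- **Eichler-Shimura relation** `σ² - T_p σ + p ⟨p⟩ = 0`. -/
theorem eichlerShimura (P : HeckePair (laurentBaseChange Kbar F₀) p) (hp : p.Prime)
    {A : ValuationSubring Kbar} (hA : A.LiesOverPrime p)
    (hnorm : NormableOn (laurentBaseChange Kbar F₀) A)
    (hinj : InjNear (laurentBaseChange Kbar F₀) m A)
    (σ : Kbar ≃ₐ[ℚ] Kbar) (hσ : A.IsFrobeniusAt σ p)
    (x : KV Kbar (laurentBaseChange Kbar F₀) m) :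
    σ • σ • x - P.T m (σ • x) + p • P.R m x = 0 := by
  obtain ⟨u, rfl⟩ := KV.mk_surjective x
  obtain ⟨ζ, hζ⟩ : ∃ ζ : Kbar, IsPrimitiveRoot ζ p :=
    HasEnoughRootsOfUnity.exists_primitiveRoot Kbar p
  have hζ0 : ζ ≠ 0 := hζ.ne_zero (NeZero.ne p)
  rw [smul_mk, smul_mk, HeckePair.T, HeckePair.R, KV.map_mk, KV.map_mk, ← KV.mk_pow,
    sub_eq_add_neg, ← KV.mk_inv, ← KV.mk_mul, ← KV.mk_mul]
  apply mk_eq_zero_of_near1 hinj
  rw [Subgroup.coe_mul, Subgroup.coe_mul, Units.val_mul, Units.val_mul, Subgroup.coe_inv,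
    Units.val_inv_eq_inv_val, Subgroup.coe_pow, Units.val_pow_eq_pow_val,
    IntermediateField.coe_mul, IntermediateField.coe_mul, IntermediateField.coe_inv,
    IntermediateField.coe_pow, coe_conj, coe_conj]
  -- notation
  set u0 : laurentBaseChange Kbar F₀ := ((u : (laurentBaseChange Kbar F₀)ˣ) :
    laurentBaseChange Kbar F₀) with hu0
  have hu0ne : u0 ≠ 0 := (u : (laurentBaseChange Kbar F₀)ˣ).ne_zero
  set U : LaurentSeries Kbar := (u0 : LaurentSeries Kbar) with hU
  set s1 : LaurentSeries Kbar := coeffMap (σ : Kbar →+* Kbar) U with hs1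
  set s2 : LaurentSeries Kbar := coeffMap (σ : Kbar →+* Kbar) s1 with hs2
  set DU : LaurentSeries Kbar := ((P.D u0 : laurentBaseChange Kbar F₀) : LaurentSeries Kbar)
    with hDU
  have hconj : ((conj σ u : (laurentBaseChange Kbar F₀)ˣ) : laurentBaseChange Kbar F₀) =
      arithmeticRingAut F₀ σ u0 := rfl
  show Near1 A (s2 * ((P.N ((conj σ u : (laurentBaseChange Kbar F₀)ˣ) :
    laurentBaseChange Kbar F₀) : laurentBaseChange Kbar F₀) : LaurentSeries Kbar)⁻¹ * DU ^ p)
  rw [hconj]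
  set Y : LaurentSeries Kbar := ((P.N (arithmeticRingAut F₀ σ u0) : laurentBaseChange Kbar F₀) :
    LaurentSeries Kbar) with hY
  have hform : qExpand Kbar p Y = qExpand Kbar p (qExpand Kbar p (coeffMap (σ : Kbar →+* Kbar) DU)) *
      ∏ i ∈ Finset.range p, twist (ζ ^ i) (pow_ne_zero _ hζ0) s1 := by
    rw [hY, P.N_formula ζ hζ, P.D_conj, coe_arithmeticRingAut_apply, coe_arithmeticRingAut_apply]
  have hUne : U ≠ 0 := fun h => hu0ne (Subtype.ext h)
  have hs1ne : s1 ≠ 0 := (map_ne_zero _).2 hUne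
  have hs2ne : s2 ≠ 0 := (map_ne_zero _).2 hs1ne
  have hDUne : DU ≠ 0 := fun h => (map_ne_zero P.D).2 hu0ne (Subtype.ext h)
  have hnU : Normable A U := hnorm u0 hu0ne
  have hnDU : Normable A DU := hnorm (P.D u0) ((map_ne_zero P.D).2 hu0ne)
  have hns1 : Normable A s1 := hnorm (arithmeticRingAut F₀ σ u0) ((map_ne_zero _).2 hu0ne)
  -- the three basic congruences
  have ha := (near1_frobenius_div hp hA hnDU σ hσ).qExpand p
  have hb : Near1 A ((∏ i ∈ Finset.range p, twist (ζ ^ i) (pow_ne_zero _ hζ0) s1) / s1 ^ p) := by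
    have := Near1.prod (A := A) (Finset.range p)
      (fun i => twist (ζ ^ i) (pow_ne_zero _ hζ0) s1 / s1) (fun i _ =>
        near1_twist_div hp hA hns1 (by rw [← pow_mul, mul_comm, pow_mul, hζ.pow_eq_one, one_pow]) _)
    rwa [Finset.prod_div_distrib, Finset.prod_const, Finset.card_range] at this
  have hc := near1_frobenius_div hp hA hns1 σ hσ
  have hkey : Near1 A (qExpand Kbar p (Y / (DU ^ p * s2))) := by
    have h := (ha.mul hb).div hc
    have e : qExpand Kbar p (Y / (DU ^ p * s2)) =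
        qExpand Kbar p (qExpand Kbar p (coeffMap (σ : Kbar →+* Kbar) DU) / DU ^ p) *
          ((∏ i ∈ Finset.range p, twist (ζ ^ i) (pow_ne_zero _ hζ0) s1) / s1 ^ p) /
          (qExpand Kbar p s2 / s1 ^ p) := by
      have h1 : qExpand Kbar p (DU ^ p) ≠ 0 := (map_ne_zero _).2 (pow_ne_zero _ hDUne)
      have h2 : qExpand Kbar p s2 ≠ 0 := (map_ne_zero _).2 hs2ne
      have h3 : s1 ^ p ≠ 0 := pow_ne_zero _ hs1ne
      rw [map_div₀, map_mul, hform, map_div₀]
      field_simp
    rw [e]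
    exact h
  have hfin := (near1_of_qExpand p hkey).inv
  have e2 : (Y / (DU ^ p * s2))⁻¹ = s2 * Y⁻¹ * DU ^ p := by
    rw [inv_div, div_eq_mul_inv]
    ring
  rw [e2] at hfin
  exact hfin

end Main

end Fermat.Agent.S48.ES1
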