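import Fermat.Agent.S48.ES1.GenDefs
import Fermat.Agent.S48.Full.F1Defs
import Fermat.Agent.S48.HK.Coset

/-!
# S48 / ES1 leaf C1 : the group theoretic input for `Γ = ± Γ₁(M)`, `σ = diaRep M p`

* `conj` : for `γ ∈ ± Γ₁(M) ∩ Γ₀(p)`, `γ 1 0 = p e`; `γ' = [[γ00, p γ01],[e, γ11]]` (`det = 1`);
  `IsScale p γ γ'` by `rfl`s; `M ∣ γ 1 0 = p e` and `(p, M) = 1` give `M ∣ e`; the diagonal is unchanged, so
  `γ' ∈ ± Γ₁(M)` (treat `γ ∈ Γ₁(M)` and `-γ ∈ Γ₁(M)`; `Gamma1_mem`).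
* `rep i` : by CRT (`Nat.chineseRemainder` / `ZMod.chineseRemainder` / Bezout for `p, M`) pick `d : ℤ` with `d ≡ 1 (M)`,
  `d ≡ M i (p)`.  `gcd(d, M) = 1`, so there are `a, b` with `a d - b M = 1`; `γ = [[a, b],[M, d]] ∈ Γ₁(M)`
  (`a ≡ 1` since `a d ≡ 1`).  Write `d = M i + p e`.  `HK.Coset_heckeDiagMatrix_mul_of_eq γ i e` gives `g'` with
  `g' 1 0 = M`, `g' 1 1 = e`, `δ γ = g' A_i`.  Put `γ' = σ g'`: `σ ∈ Γ₀(M)` (`HK.diaRep_mem`), lower right entry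
  `≡ σ11 e ≡ p e ≡ d ≡ 1 (M)` (`HK.Coset_mul_apply_one_one`, `HK.diaRep_apply`, `HK.GoodPrime.coe_unit`),
  lower left `≡ 0`, upper left `≡ 1` from `det = 1` : `γ' ∈ Γ₁(M)`.  `mapGL` is multiplicative (`map_mul`), `mul_assoc`.
-/

set_option autoImplicit false
set_option linter.unusedSectionVars false

open UpperHalfPlane ModularCurve CongruenceSubgroup Matrix.SpecialLinearGroup
open scoped MatrixGroups Manifold

noncomputable section

namespace Fermat.Agent.S48.ES1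

open Fermat.Agent.S48.Full

variable {M : ℕ} [NeZero M]

theorem conjDiag_Gamma1PM (p : HK.GoodPrime M) : ConjDiag (Gamma1PM M) p.1 := by
  rintro γ ⟨hγ, hγp⟩
  obtain ⟨e, he⟩ : ((p.1 : ℕ) : ℤ) ∣ γ 1 0 :=
    (ZMod.intCast_zmod_eq_zero_iff_dvd _ _).mp (Gamma0_mem.mp hγp)
  have hdet : γ 0 0 * γ 1 1 - γ 0 1 * γ 1 0 = 1 := by
    have := γ.det_coe
    rw [Matrix.det_fin_two] at this
    exact this
  have hpu : IsUnit ((p.1 : ℕ) : ZMod M) := by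
    rw [← HK.GoodPrime.coe_unit]; exact Units.isUnit _
  have key : ((γ 1 0 : ℤ) : ZMod M) = 0 → ((e : ℤ) : ZMod M) = 0 := by
    intro h
    rw [he] at h
    push_cast at h
    exact (hpu.mul_right_eq_zero).1 h
  obtain ⟨γ', h00, h01, h10, h11⟩ : ∃ γ' : SL(2, ℤ), γ' 0 0 = γ 0 0 ∧ γ' 0 1 = p.1 * γ 0 1 ∧
      γ' 1 0 = e ∧ γ' 1 1 = γ 1 1 := by
    refine ⟨⟨!![γ 0 0, p.1 * γ 0 1; e, γ 1 1], ?_⟩, rfl, rfl, rfl, rfl⟩
    rw [Matrix.det_fin_two_of]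
    linear_combination hdet + (γ 0 1) * he
  refine ⟨γ', ?_, h00, h01, by rw [h10, he], h11⟩
  rcases hγ with h | h
  · left
    rw [Gamma1_mem] at h ⊢
    rw [h00, h11, h10]
    exact ⟨h.1, h.2.1, key h.2.2⟩
  · right
    rw [Gamma1_mem] at h ⊢
    simp only [Matrix.SpecialLinearGroup.coe_neg, Matrix.neg_apply, Int.cast_neg] at h ⊢
    rw [h00, h11, h10]
    refine ⟨h.1, h.2.1, ?_⟩
    have h3 : ((γ 1 0 : ℤ) : ZMod M) = 0 := by simpa using h.2.2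
    rw [key h3, neg_zero]

theorem rep_Gamma1PM (p : HK.GoodPrime M) (i : ℕ) : ∃ γ ∈ Gamma1PM M, ∃ γ' ∈ Gamma1PM M,
    mapGL ℝ (HK.diaRep M p.unit) * ModularForm.heckeDiagMatrix p.1 * mapGL ℝ γ =
      mapGL ℝ γ' * ModularForm.heckeMatrix p.1 i := by
  have hcop : IsCoprime ((p.1 : ℕ) : ℤ) (M : ℤ) :=
    Nat.isCoprime_iff_coprime.mpr ((Nat.Prime.coprime_iff_not_dvd p.2.1).mpr p.2.2)
  obtain ⟨u, v, huv⟩ := hcop
  -- `u p + v M = 1`
  set d : ℤ := u * p.1 + (v * M) * (M * i) with hd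
  set w : ℤ := v * (M * i - 1) with hw
  set e : ℤ := u * (1 - M * i) with he
  have hMz : ((M : ℤ) : ZMod M) = 0 := by simp
  have hd1 : d - w * M = 1 := by rw [hd, hw]; linear_combination huv
  have hde : d = M * i + p.1 * e := by
    rw [hd, he]; linear_combination (M * i : ℤ) * huv
  have hdM : ((d : ℤ) : ZMod M) = 1 := by
    have := congrArg (Int.cast : ℤ → ZMod M) hd1
    push_cast at this
    rw [ZMod.natCast_self] at this
    simpa using this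
  let γ : SL(2, ℤ) := ⟨!![1, w; M, d], by rw [Matrix.det_fin_two_of]; linear_combination hd1⟩
  have hγ : γ ∈ Gamma1 M := by
    rw [Gamma1_mem]
    refine ⟨?_, hdM, hMz⟩
    show (((1 : ℤ)) : ZMod M) = 1
    simp
  obtain ⟨g', hg1, hg2, hmul⟩ := HK.Coset_heckeDiagMatrix_mul_of_eq p.2.1.ne_zero γ i e hde
  have hg10 : g' 1 0 = M := hg1
  have hg' : g' ∈ Gamma0 M := by
    rw [Gamma0_mem, hg10]; exact hMz
  have hσ := HK.diaRep_mem M p.unit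
  have hγ'0 : HK.diaRep M p.unit * g' ∈ Gamma0 M := mul_mem hσ hg'
  have h11 : (((HK.diaRep M p.unit * g') 1 1 : ℤ) : ZMod M) = 1 := by
    rw [HK.Coset_mul_apply_one_one _ _ hσ, HK.diaRep_apply, HK.GoodPrime.coe_unit, hg2, ← hdM, hde]
    push_cast
    rw [ZMod.natCast_self]
    ring
  have h10 : (((HK.diaRep M p.unit * g') 1 0 : ℤ) : ZMod M) = 0 := Gamma0_mem.mp hγ'0
  have h00 : (((HK.diaRep M p.unit * g') 0 0 : ℤ) : ZMod M) = 1 := by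
    have hdet := (HK.diaRep M p.unit * g').det_coe
    rw [Matrix.det_fin_two] at hdet
    have := congrArg (Int.cast : ℤ → ZMod M) hdet
    push_cast at this
    rw [h11, h10] at this
    simpa using this
  refine ⟨γ, Gamma1_le_Gamma1PM M hγ, HK.diaRep M p.unit * g',
    Gamma1_le_Gamma1PM M ((Gamma1_mem _ _).2 ⟨h00, h11, h10⟩), ?_⟩
  rw [mul_assoc, hmul, map_mul, mul_assoc]

/-- **(C1)** -/
theorem heckeGrp_Gamma1PM (p : HK.GoodPrime M) :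
    HeckeGrp (Gamma1PM M) p.1 (HK.diaRep M p.unit) :=
  ⟨conjDiag_Gamma1PM p, rep_Gamma1PM p⟩

end Fermat.Agent.S48.ES1
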