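import Fermat.Agent.S48.ES1.Inj

/-!
# S48 / ES1 leaf C3b : `InjNear` descends from the full level field to `F1`

* `injNear_F1` : transport along `Full.F1_eq` (state the claim for a variable field `F` with `F = F1C Kbar M`, `subst`);
  for `u` a Kummer unit of `F1C`, `Full.incl1 iota M u` is a Kummer unit of `FS Kbar (gensC Kbar M)`
  (`Full.dvd_ord_incl1`; `FFullC` unfolds to `FS _ (gensC _ _)`), same series (`Full.coe_incl1`), so
  `injNear_of_injAt` gives `w ^ m = incl1 u`, and `Full.mem_F1C_of_pow_eq` puts `w` in `F1C`.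
-/

set_option autoImplicit false

noncomputable section

namespace Fermat.Agent.S48.ES1

open ModularCurve AlgebraicCurve Fermat.Agent.S24 Fermat.Agent.GAL Fermat.Agent.GAL.Gauss
  Fermat.Agent.S36.StepA Fermat.Agent.S48.Full

variable {A : ValuationSubring Kbar}

/-- abstract descent of `InjNear` along an inclusion of fields. -/
private theorem injNear_descend {F F' : IntermediateField Kbar (LaurentSeries Kbar)} {m : ℕ}
    (hm0 : m ≠ 0) (j : F →ₐ[Kbar] F')
    (hj : ∀ x : F, ((j x : F') : LaurentSeries Kbar) = x)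
    (hdvd : ∀ u : F, u ≠ 0 → (∀ v : Place Kbar F, (m : ℤ) ∣ v.ord u) →
      ∀ P : Place Kbar F', (m : ℤ) ∣ P.ord (j u))
    (hmem : ∀ u : F, u ≠ 0 → (∀ v : Place Kbar F, (m : ℤ) ∣ v.ord u) →
      ∀ w : F', w ^ m = j u → (w : LaurentSeries Kbar) ∈ F)
    (key : InjNear F' m A) : InjNear F m A := by
  intro u hu hnear
  have hu0 : (u : F) ≠ 0 := u.ne_zero
  have hdiv : ∀ v : Place Kbar F, (m : ℤ) ∣ v.ord (u : F) := hu
  have hju0 : j (u : F) ≠ 0 := (map_ne_zero_iff _ j.injective).2 hu0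
  obtain ⟨y, hy⟩ := key (Units.mk0 (j (u : F)) hju0)
    (fun P => by
      rw [Units.val_mk0]
      exact hdvd (u : F) hu0 hdiv P)
    (by
      rw [Units.val_mk0, hj]
      exact hnear)
  have hy' : (y : F') ^ m = j (u : F) := by
    rw [← Units.val_pow_eq_pow_val, hy, Units.val_mk0]
  have hmem' := hmem (u : F) hu0 hdiv (y : F') hy'
  have hpow : (⟨_, hmem'⟩ : F) ^ m = (u : F) := by
    apply Subtype.ext
    rw [SubmonoidClass.coe_pow, ← hj (u : F), ← hy', SubmonoidClass.coe_pow]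
  have hne : (⟨_, hmem'⟩ : F) ≠ 0 := by
    intro h0
    rw [h0, zero_pow hm0] at hpow
    exact hu0 hpow.symm
  refine ⟨Units.mk0 _ hne, ?_⟩
  apply Units.ext
  rw [Units.val_pow_eq_pow_val, Units.val_mk0]
  exact hpow

private theorem injNear_F1C (M : ℕ) [NeZero M] (hfrac : FracOn (FFullC Kbar M) A)
    (hinj : InjAt A (FFullC Kbar M)) {m : ℕ}
    (hm : ((m : ℕ) : IsLocalRing.ResidueField ↥A) ≠ 0) : InjNear (F1C Kbar M) m A := by
  have hm0 : m ≠ 0 := by
    rintro rfl
    exact hm Nat.cast_zero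
  have key : InjNear (FS Kbar (gensC Kbar M)) m A := injNear_of_injAt hfrac hinj hm
  exact injNear_descend hm0 (incl1 S24.iota M) (coe_incl1 S24.iota M)
    (fun u hu0 hdiv P => dvd_ord_incl1 S24.iota M (m : ℤ) u hu0 hdiv P)
    (fun u hu0 hdiv w hw => mem_F1C_of_pow_eq S24.iota M m hm0 u hu0 hdiv w hw) key

theorem injNear_F1 (M : ℕ) [NeZero M] (hfrac : FracOn (FFullC Kbar M) A)
    (hinj : InjAt A (FFullC Kbar M)) {m : ℕ}
    (hm : ((m : ℕ) : IsLocalRing.ResidueField ↥A) ≠ 0) : InjNear (F1 Kbar M) m A := by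
  rw [F1_eq]
  exact injNear_F1C M hfrac hinj hm

end Fermat.Agent.S48.ES1
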