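import Fermat.Agent.S48.ES1.GenSeries
import Fermat.Agent.S48.ES1.Grp1
import Fermat.Agent.S48.ES1.InjF1
import Fermat.Agent.GAL.Hecke.Normalise

/-!
# S48 / ES1 : assembly.  `⟨d⟩`, `N_p` on `F1 Kbar M`; `T_p`, `⟨p⟩` on `KV Kbar (F1 Kbar M) ℓ`

Exports (no `sorry` of its own):
* `diaS M d`, `normS M p` on `FS Kbar (gens1 Kbar M)`; `heckePair M p : HeckePair (F1 Kbar M) p`;
* `TV M ℓ p`, `RV M ℓ p`, `TV_smul`, `RV_smul`;
* `unram`, `ES` from the IGUSA1 contracts `Full.StmtInjFull M`, `StmtFracFull M`;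
* for KUM: `PsiQ_D`, `PsiQ_N` (the operators in `Mer`, in terms of series).
-/

set_option autoImplicit false

open UpperHalfPlane ModularCurve AlgebraicCurve CongruenceSubgroup Matrix.SpecialLinearGroup
open scoped MatrixGroups Manifold

noncomputable section

namespace Fermat.Agent.S48.ES1

open Fermat.Agent.S24 Fermat.Agent.GAL Fermat.Agent.GAL.Tors Fermat.Agent.S48.Full
  Fermat.Agent.S36.StepA

variable (M : ℕ) [NeZero M]

instance instNeZeroGoodPrime (p : HK.GoodPrime M) : NeZero p.1 := ⟨p.2.1.ne_zero⟩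

/-- `⟨d⟩ : u ↦ u ∘ diaRep M d`. -/
def diaS (d : (ZMod M)ˣ) : FS Kbar (gens1 Kbar M) ≃ₐ[Kbar] FS Kbar (gens1 Kbar M) :=
  act1 S24.iota M (⟨HK.diaRep M d, HK.diaRep_mem M d⟩ : Gamma0 M)⁻¹

theorem PsiMer_diaS (d : (ZMod M)ˣ) (x : FS Kbar (gens1 Kbar M)) :
    (genSet_F1 S24.iota M).PsiMer (diaS M d x) =
      compSL (HK.diaRep M d) ((genSet_F1 S24.iota M).PsiMer x) := by
  rw [diaS, PsiMer_act1, Subgroup.coe_inv, inv_inv]

/-- `N_p`. -/
def normS (p : HK.GoodPrime M) : FS Kbar (gens1 Kbar M) →* FS Kbar (gens1 Kbar M) :=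
  normP p.1 (genSet_F1 S24.iota M) (heckeGrp_Gamma1PM p).conj (diaS M p.unit)

/-- the pair `(⟨p⟩, N_p)` on `Kbar(gens1)`. -/
def heckePairS (p : HK.GoodPrime M) : HeckePair (FS Kbar (gens1 Kbar M)) p.1 where
  D := diaS M p.unit
  N := normS M p
  D_gal s x hx := coeffMap_act1 S24.iota M (s : Kbar →+* Kbar) _ x ⟨_, hx⟩ rfl
  N_formula ζ hζ x := series_formula p.2.1 (genSet_F1 S24.iota M) (heckeGrp_Gamma1PM p)
    (diaS M p.unit) (PsiMer_diaS M p.unit) ζ hζ x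
  N_kummer m u hu := normP_kummer p.1 (genSet_F1 S24.iota M) (heckeGrp_Gamma1PM p).conj
    (diaS M p.unit) m u hu

theorem F1_eq_FS : F1 Kbar M = FS Kbar (gens1 Kbar M) := F1_eq Kbar M

theorem HeckePair.exists_transport {F F' : IntermediateField Kbar (LaurentSeries Kbar)} {p : ℕ}
    [NeZero p] (h : F = F') (P : HeckePair F' p) : ∃ Q : HeckePair F p,
      (∀ x : F, ((Q.D x : F) : LaurentSeries Kbar) =
        ((P.D ⟨x, h ▸ x.2⟩ : F') : LaurentSeries Kbar)) ∧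
      (∀ x : F, ((Q.N x : F) : LaurentSeries Kbar) =
        ((P.N ⟨x, h ▸ x.2⟩ : F') : LaurentSeries Kbar)) := by
  subst h
  exact ⟨P, fun _ => rfl, fun _ => rfl⟩

/-- transport of a `HeckePair` along an equality of fields (through `Exists.choose`, NOT `▸`: the
kernel would try to prove the two fields definitionally equal at every projection). -/
def HeckePair.transport {F F' : IntermediateField Kbar (LaurentSeries Kbar)} {p : ℕ} [NeZero p]
    (h : F = F') (P : HeckePair F' p) : HeckePair F p := (HeckePair.exists_transport h P).choose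

theorem HeckePair.coe_transport_D {F F' : IntermediateField Kbar (LaurentSeries Kbar)} {p : ℕ}
    [NeZero p] (h : F = F') (P : HeckePair F' p) (x : F) :
    (((HeckePair.transport h P).D x : F) : LaurentSeries Kbar) =
      ((P.D ⟨x, h ▸ x.2⟩ : F') : LaurentSeries Kbar) :=
  (HeckePair.exists_transport h P).choose_spec.1 x

theorem HeckePair.coe_transport_N {F F' : IntermediateField Kbar (LaurentSeries Kbar)} {p : ℕ}
    [NeZero p] (h : F = F') (P : HeckePair F' p) (x : F) :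
    (((HeckePair.transport h P).N x : F) : LaurentSeries Kbar) =
      ((P.N ⟨x, h ▸ x.2⟩ : F') : LaurentSeries Kbar) :=
  (HeckePair.exists_transport h P).choose_spec.2 x

/-- **the pair `(⟨p⟩, N_p)` on `F1 Kbar M`.** -/
def heckePair (p : HK.GoodPrime M) : HeckePair (F1 Kbar M) p.1 :=
  HeckePair.transport (F1_eq_FS M) (heckePairS M p)

/-- `T_p` on the Kummer model of `J₁(M)[ℓ]`. -/
def TV (ℓ : ℕ) (p : HK.GoodPrime M) : KV Kbar (F1 Kbar M) ℓ →+ KV Kbar (F1 Kbar M) ℓ :=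
  (heckePair M p).T ℓ

/-- `⟨p⟩` on the Kummer model of `J₁(M)[ℓ]`. -/
def RV (ℓ : ℕ) (p : HK.GoodPrime M) : KV Kbar (F1 Kbar M) ℓ →+ KV Kbar (F1 Kbar M) ℓ :=
  (heckePair M p).R ℓ

theorem TV_smul (ℓ : ℕ) (p : HK.GoodPrime M) (σ : Kbar ≃ₐ[ℚ] Kbar)
    (x : KV Kbar (F1 Kbar M) ℓ) : TV M ℓ p (σ • x) = σ • TV M ℓ p x :=
  (heckePair M p).T_smul p.2.1 σ x

theorem RV_smul (ℓ : ℕ) (p : HK.GoodPrime M) (σ : Kbar ≃ₐ[ℚ] Kbar)
    (x : KV Kbar (F1 Kbar M) ℓ) : RV M ℓ p (σ • x) = σ • RV M ℓ p x :=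
  (heckePair M p).R_smul σ x

variable {M}

theorem natCast_residue_ne_zero' {A : ValuationSubring Kbar} {p ℓ : ℕ} (hp : p.Prime)
    (hA : A.LiesOverPrime p) (hℓ : ℓ.Prime) (hpℓ : p ≠ ℓ) :
    ((ℓ : ℕ) : IsLocalRing.ResidueField A) ≠ 0 :=
  Hecke.natCast_residue_ne_zero A hp hA (fun h => hpℓ ((Nat.prime_dvd_prime_iff_eq hp hℓ).1 h))

/-- **Unramifiedness** outside `M ℓ`. -/
theorem unram (hinj : StmtInjFull M) (hfrac : StmtFracFull M) {ℓ : ℕ} (hℓ : ℓ.Prime)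
    (p : HK.GoodPrime M) (hpℓ : p.1 ≠ ℓ) (A : ValuationSubring Kbar) (hA : A.LiesOverPrime p.1)
    (σ : Kbar ≃ₐ[ℚ] Kbar) (hσ : σ ∈ A.inertiaSubgroupIn ℚ) (x : KV Kbar (F1 Kbar M) ℓ) :
    σ • x = x := by
  have hM := Hecke.natCast_residue_ne_zero A p.2.1 hA p.2.2
  exact inertia_smul (normableOn_F1 M (hfrac A hM))
    (injNear_F1 M (hfrac A hM) (hinj A hM) (natCast_residue_ne_zero' p.2.1 hA hℓ hpℓ)) σ hσ x

/-- **Eichler-Shimura**: `σ² - T_p σ + p ⟨p⟩ = 0`. -/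
theorem ES (hinj : StmtInjFull M) (hfrac : StmtFracFull M) {ℓ : ℕ} (hℓ : ℓ.Prime)
    (p : HK.GoodPrime M) (hpℓ : p.1 ≠ ℓ) (A : ValuationSubring Kbar) (hA : A.LiesOverPrime p.1)
    (σ : Kbar ≃ₐ[ℚ] Kbar) (hσ : A.IsFrobeniusAt σ p.1) (x : KV Kbar (F1 Kbar M) ℓ) :
    σ • σ • x - TV M ℓ p (σ • x) + p.1 • RV M ℓ p x = 0 := by
  have hM := Hecke.natCast_residue_ne_zero A p.2.1 hA p.2.2
  exact eichlerShimura (heckePair M p) p.2.1 hA (normableOn_F1 M (hfrac A hM))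
    (injNear_F1 M (hfrac A hM) (hinj A hM) (natCast_residue_ne_zero' p.2.1 hA hℓ hpℓ)) σ hσ x

/-! ### the operators in `Mer` (for KUM) -/

theorem coeffMap_iota_mem_MerQ (x : F1 Kbar M) :
    coeffMap S24.iota (x : LaurentSeries Kbar) ∈ MerQ :=
  coeffMap_mem_MerQ (genSet_F1 S24.iota M) ⟨x, F1_eq_FS M ▸ x.2⟩

theorem PsiQ_congr {a b : LaurentSeries ℂ} (h : a = b) (ha : a ∈ MerQ) (hb : b ∈ MerQ) :
    PsiQ ⟨a, ha⟩ = PsiQ ⟨b, hb⟩ := by
  subst h; rfl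

theorem heckePairS_D (p : HK.GoodPrime M) : (heckePairS M p).D = diaS M p.unit := rfl

theorem heckePairS_N (p : HK.GoodPrime M) : (heckePairS M p).N = normS M p := rfl

theorem coe_heckePair_D (p : HK.GoodPrime M) (x : F1 Kbar M) :
    (((heckePair M p).D x : F1 Kbar M) : LaurentSeries Kbar) =
      ((diaS M p.unit ⟨x, F1_eq_FS M ▸ x.2⟩ : FS Kbar (gens1 Kbar M)) : LaurentSeries Kbar) := by
  rw [heckePair, HeckePair.coe_transport_D, heckePairS_D]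

theorem coe_heckePair_N (p : HK.GoodPrime M) (x : F1 Kbar M) :
    (((heckePair M p).N x : F1 Kbar M) : LaurentSeries Kbar) =
      ((normS M p ⟨x, F1_eq_FS M ▸ x.2⟩ : FS Kbar (gens1 Kbar M)) : LaurentSeries Kbar) := by
  rw [heckePair, HeckePair.coe_transport_N, heckePairS_N]

/-- `⟨p⟩ u = u ∘ diaRep M p`. -/
theorem PsiQ_D (p : HK.GoodPrime M) (x : F1 Kbar M) :
    PsiQ ⟨_, coeffMap_iota_mem_MerQ ((heckePair M p).D x)⟩ =
      compSL (HK.diaRep M p.unit) (PsiQ ⟨_, coeffMap_iota_mem_MerQ x⟩) := by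
  rw [PsiQ_congr (congrArg (coeffMap S24.iota) (coe_heckePair_D p x)) _
    (coeffMap_mem_MerQ (genSet_F1 S24.iota M) _), ← PsiMer_eq_PsiQ (genSet_F1 S24.iota M),
    PsiMer_diaS, PsiMer_eq_PsiQ (genSet_F1 S24.iota M)]

/-- `N_p u = (u ∘ diaRep M p ∘ diag(p,1)) ∏_{i<p} u ∘ [[1,i],[0,p]]`. -/
theorem PsiQ_N (p : HK.GoodPrime M) (x : F1 Kbar M) :
    PsiQ ⟨_, coeffMap_iota_mem_MerQ ((heckePair M p).N x)⟩ =
      compGL (ModularForm.heckeDiagMatrix p.1) (ModularForm.det_heckeDiagMatrix_pos p.1)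
          (compSL (HK.diaRep M p.unit) (PsiQ ⟨_, coeffMap_iota_mem_MerQ x⟩)) *
        ∏ i ∈ Finset.range p.1,
          compGL (ModularForm.heckeMatrix p.1 i) (ModularForm.det_heckeMatrix_pos p.1 i)
            (PsiQ ⟨_, coeffMap_iota_mem_MerQ x⟩) := by
  rw [PsiQ_congr (congrArg (coeffMap S24.iota) (coe_heckePair_N p x)) _
    (coeffMap_mem_MerQ (genSet_F1 S24.iota M) _), ← PsiMer_eq_PsiQ (genSet_F1 S24.iota M), normS,
    PsiMer_normP p.2.1 (genSet_F1 S24.iota M) (heckeGrp_Gamma1PM p) (diaS M p.unit)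
      (PsiMer_diaS M p.unit), PsiMer_eq_PsiQ (genSet_F1 S24.iota M)]

end Fermat.Agent.S48.ES1
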