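import Fermat.Agent.S48.ES1.Abs
import Fermat.Agent.S48.Full.Main

/-!
# S48 / ES1 leaf C3a : from the IGUSA1 contracts to `NormableOn`, `InjNear` for `F1`

Inputs (block IGUSA1, for `FFullC Kbar M`): `Full.StmtInjFull M` and `StmtFracFull M`
(`= Igusa1.GHyp.normalise_frac` for `FK = FFullC Kbar M`).

* `FracOn.normableOn` : `iA Q * x = C c * iA P` gives `C c⁻¹ * x ∈ gRing A` (witnesses `z = P`, `g = Q`;
  `HahnSeries.C` is a ring hom, `C c⁻¹ * C c = 1`), `gRes = pA P / pA Q ≠ 0` (`Gauss.gRes_eq`).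
* `injNear_of_injAt` : `u` Kummer unit, `c ≠ 0` with `x := C c * u ∈ gRing A`, `gRes x = 1`; `x ∈ F`
  (`C c = algebraMap`, `algebraMap_laurentSeries_eq_single`/`HahnSeries.C_apply`).  `FracOn` : `iA Q * x = C c' * iA P`.
  `C c' = iA Q * x * (iA P)⁻¹ ∈ gRing A` (`Gauss.inv_mem_gRing_of_gRes_ne_zero`, `gRes_iA`), so `c' ∈ A`
  (`Gauss.C_mem_gRing_iff`); `P' := C ⟨c', _⟩ * P` satisfies `iA P' = C c' * iA P ∈ F` and, applying `gRes` to
  `iA Q * x = iA P'` : `pA Q = pA P'`.  `InjAt` with `(P', Q)` : `x = iA P' / iA Q = w ^ m`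
  (orders: `v.ord x = v.ord u` by `S24.ord_algebraMap`, `Place.ord_mul`).  Finally `c⁻¹ = c₀ ^ m`
  (`IsAlgClosed.exists_pow_nat_eq`, `m ≠ 0` since `(m : k) ≠ 0`) and `u = (c₀ w)^m`.
-/

set_option autoImplicit false

noncomputable section

namespace Fermat.Agent.S48.ES1

open ModularCurve AlgebraicCurve Fermat.Agent.S24 Fermat.Agent.GAL Fermat.Agent.GAL.Gauss
  Fermat.Agent.S36.StepA Fermat.Agent.S48.Full

/-- **FRAC**: every nonzero element of `F` is `c P / Q` with `P, Q ∈ F` having `A`-integral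
expansions with nonzero reduction. -/
def FracOn (F : IntermediateField Kbar (LaurentSeries Kbar)) (A : ValuationSubring Kbar) : Prop :=
  ∀ x : LaurentSeries Kbar, x ∈ F → x ≠ 0 →
    ∃ (c : Kbar) (P Q : LaurentSeries ↥A), c ≠ 0 ∧ iA A P ∈ F ∧ iA A Q ∈ F ∧
      pA A P ≠ 0 ∧ pA A Q ≠ 0 ∧ iA A Q * x = HahnSeries.C c * iA A P

/-- Contract of block IGUSA1 (second half): `GHyp.normalise_frac` for the full level field. -/
def StmtFracFull (M : ℕ) [NeZero M] : Prop :=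
  ∀ A : ValuationSubring Kbar, ((M : ℕ) : IsLocalRing.ResidueField ↥A) ≠ 0 →
    FracOn (FFullC Kbar M) A

variable {F F' : IntermediateField Kbar (LaurentSeries Kbar)} {A : ValuationSubring Kbar}

theorem FracOn.normableOn (h : FracOn F A) : NormableOn F A := by
  intro x hx
  have hx0 : (x : LaurentSeries Kbar) ≠ 0 := fun h0 => hx (Subtype.ext h0)
  obtain ⟨c, P, Q, hc, -, -, hP, hQ, e⟩ := h x x.2 hx0
  have hCc : (HahnSeries.C c⁻¹ : LaurentSeries Kbar) * HahnSeries.C c = 1 := by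
    rw [← map_mul, inv_mul_cancel₀ hc, map_one]
  have e' : iA A Q * (HahnSeries.C c⁻¹ * (x : LaurentSeries Kbar)) = iA A P := by
    calc iA A Q * (HahnSeries.C c⁻¹ * (x : LaurentSeries Kbar))
        = HahnSeries.C c⁻¹ * (iA A Q * (x : LaurentSeries Kbar)) := by ring
      _ = (HahnSeries.C c⁻¹ * HahnSeries.C c) * iA A P := by rw [e]; ring
      _ = iA A P := by rw [hCc, one_mul]
  have hmem : HahnSeries.C c⁻¹ * (x : LaurentSeries Kbar) ∈ gRing A :=
    (mem_gRing_iff A).mpr ⟨P, Q, hQ, e'⟩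
  refine ⟨c⁻¹, inv_ne_zero hc, hmem, ?_⟩
  rw [gRes_eq A ⟨_, hmem⟩ hQ e']
  exact div_ne_zero hP hQ

theorem NormableOn.mono (hle : F ≤ F') (h : NormableOn F' A) : NormableOn F A :=
  fun x hx => h ⟨x, hle x.2⟩ (fun h0 => hx (Subtype.ext
    (congrArg (Subtype.val : F' → LaurentSeries Kbar) h0)))

theorem injNear_of_injAt (hfrac : FracOn F A) (hinj : InjAt A F) {m : ℕ}
    (hm : ((m : ℕ) : IsLocalRing.ResidueField ↥A) ≠ 0) : InjNear F m A := by
  intro u hu hnear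
  obtain ⟨c, hc, hmem, hres⟩ := hnear
  have hm0 : m ≠ 0 := by
    rintro rfl
    exact hm Nat.cast_zero
  have hCalg : ∀ a : Kbar, (HahnSeries.C a : LaurentSeries Kbar) =
      algebraMap Kbar (LaurentSeries Kbar) a := fun a => by
    rw [algebraMap_laurentSeries_eq_single, HahnSeries.C_apply]
  -- the element `x = c u` of `F`
  set xF : F := algebraMap Kbar F c * (u : F) with hxF
  have hxcoe : (xF : LaurentSeries Kbar) = HahnSeries.C c * ((u : F) : LaurentSeries Kbar) := by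
    rw [hxF, hCalg]
    rfl
  have hc' : algebraMap Kbar F c ≠ 0 := by simpa using hc
  have hxF0 : xF ≠ 0 := mul_ne_zero hc' u.ne_zero
  have hx0 : (xF : LaurentSeries Kbar) ≠ 0 := fun h0 => hxF0 (Subtype.ext h0)
  have hxmem : (xF : LaurentSeries Kbar) ∈ gRing A := hxcoe ▸ hmem
  have hxres : gRes A ⟨(xF : LaurentSeries Kbar), hxmem⟩ = 1 := by
    rw [← hres]
    congr 1
    exact Subtype.ext hxcoe
  obtain ⟨c', P, Q, hc'0, hPF, hQF, hP, hQ, e⟩ := hfrac xF xF.2 hx0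
  have hPu : gRes A ⟨iA A P, iA_mem_gRing A P⟩ ≠ 0 := by rw [gRes_iA]; exact hP
  have hPinv := inv_mem_gRing_of_gRes_ne_zero A ⟨iA A P, iA_mem_gRing A P⟩ hPu
  have hP0 : iA A P ≠ 0 := iA_ne_zero_of_pA_ne_zero A hP
  have hQ0 : iA A Q ≠ 0 := iA_ne_zero_of_pA_ne_zero A hQ
  have hCc' : (HahnSeries.C c' : LaurentSeries Kbar) ∈ gRing A := by
    have h1 : (HahnSeries.C c' : LaurentSeries Kbar) =
        iA A Q * (xF : LaurentSeries Kbar) * (iA A P)⁻¹ := by
      rw [e, mul_assoc, mul_inv_cancel₀ hP0, mul_one]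
    rw [h1]
    exact mul_mem (mul_mem (iA_mem_gRing A Q) hxmem) hPinv
  have hc'A : c' ∈ A := (C_mem_gRing_iff A c').mp hCc'
  set P' : LaurentSeries ↥A := HahnSeries.C (⟨c', hc'A⟩ : ↥A) * P with hP'
  have hiC : iA A (HahnSeries.C (⟨c', hc'A⟩ : ↥A)) = HahnSeries.C c' := by
    rw [iA, HahnSeries.C_apply, HahnSeries.C_apply, coeffMap_single]
    rfl
  have hiP' : iA A P' = HahnSeries.C c' * iA A P := by rw [hP', map_mul, hiC]
  have hP'F : iA A P' ∈ F := by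
    rw [hiP', hCalg]
    exact mul_mem (F.algebraMap_mem c') hPF
  have e2 : iA A Q * (xF : LaurentSeries Kbar) = iA A P' := by rw [e, hiP']
  have hpp : pA A P' = pA A Q := by
    have h1 := gRes_eq A ⟨(xF : LaurentSeries Kbar), hxmem⟩ hQ e2
    rw [hxres] at h1
    have h2 := (eq_div_iff hQ).mp h1
    rw [one_mul] at h2
    exact h2.symm
  have hdiv : (⟨iA A P', hP'F⟩ : F) / ⟨iA A Q, hQF⟩ = xF := by
    have hQF0 : (⟨iA A Q, hQF⟩ : F) ≠ 0 := fun h0 => hQ0 (congrArg Subtype.val h0)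
    rw [div_eq_iff hQF0]
    apply Subtype.ext
    show iA A P' = (xF : LaurentSeries Kbar) * iA A Q
    rw [← e2, mul_comm]
  obtain ⟨w, hw⟩ := hinj m hm ⟨iA A P', hP'F⟩ ⟨iA A Q, hQF⟩ P' Q rfl rfl hQ hpp (by
    intro v
    rw [hdiv, hxF, v.ord_mul hc' u.ne_zero, S24.ord_algebraMap, zero_add]
    exact hu v)
  rw [hdiv] at hw
  obtain ⟨c₀, hc₀⟩ := IsAlgClosed.exists_pow_nat_eq c⁻¹ (Nat.pos_of_ne_zero hm0)
  have hy : (algebraMap Kbar F c₀ * w) ^ m = (u : F) := by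
    rw [mul_pow, ← map_pow, hc₀, ← hw, hxF, ← mul_assoc, ← map_mul, inv_mul_cancel₀ hc, map_one,
      one_mul]
  have hy0 : algebraMap Kbar F c₀ * w ≠ 0 := by
    intro h0
    rw [h0, zero_pow hm0] at hy
    exact u.ne_zero hy.symm
  exact ⟨Units.mk0 _ hy0, Units.ext (by rw [Units.val_pow_eq_pow_val]; exact hy)⟩

theorem normableOn_F1 (M : ℕ) [NeZero M] (hfrac : FracOn (FFullC Kbar M) A) :
    NormableOn (F1 Kbar M) A := by
  refine NormableOn.mono ?_ hfrac.normableOn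
  rw [F1_eq]
  exact F1C_le_FFullC S24.iota M

end Fermat.Agent.S48.ES1
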