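import Fermat.Agent.S48.ES1.Main
import Fermat.Agent.S48.ModL2.Ops

/-!
# S48 / ES1 : the contract `StmtES1` (`ModL2/Ops.lean`) from the IGUSA1 contracts

`ops1 M : Ops1 M` is unconditional; the arithmetic part needs `Full.StmtInjFull M` and
`StmtFracFull M` (both for the full level field).  No `sorry` of its own.
-/

set_option autoImplicit false

open ModularCurve AlgebraicCurve
open scoped MatrixGroups

noncomputable section

namespace Fermat.Agent.S48.ES1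

open Fermat.Agent.S24 Fermat.Agent.GAL Fermat.Agent.GAL.Tors Fermat.Agent.S48.Full

variable (M : ℕ) [NeZero M]

/-- `N_p`. -/
def np (p : HK.GoodPrime M) : F1 Kbar M →* F1 Kbar M := (heckePair M p).N

/-- `⟨p⟩`. -/
def dp (p : HK.GoodPrime M) : F1 Kbar M →* F1 Kbar M :=
  (((heckePair M p).D : F1 Kbar M →ₐ[Kbar] F1 Kbar M) : F1 Kbar M →* F1 Kbar M)

theorem np_apply (p : HK.GoodPrime M) (f : F1 Kbar M) : np M p f = (heckePair M p).N f := by
  unfold np; rfl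

theorem dp_apply (p : HK.GoodPrime M) (f : F1 Kbar M) : dp M p f = (heckePair M p).D f := by
  unfold dp; rfl

theorem np_pres (p : HK.GoodPrime M) (m : ℕ) : ∀ u ∈ kummerUnits Kbar (F1 Kbar M) m,
    Units.map (np M p) u ∈ kummerUnits Kbar (F1 Kbar M) m := by
  unfold np
  exact fun u hu => (heckePair M p).N_kummer m u hu

theorem dp_pres (p : HK.GoodPrime M) (m : ℕ) : ∀ u ∈ kummerUnits Kbar (F1 Kbar M) m,
    Units.map (dp M p) u ∈ kummerUnits Kbar (F1 Kbar M) m := by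
  unfold dp
  exact fun u hu => (heckePair M p).D_kummer u hu

theorem np_series (p : HK.GoodPrime M) [NeZero p.1] (ζ : Kbar) (hζ : IsPrimitiveRoot ζ p.1)
    (f : F1 Kbar M) :
    qExpand Kbar p.1 ((np M p f : F1 Kbar M) : LaurentSeries Kbar) =
      qExpand Kbar p.1 (qExpand Kbar p.1 ((dp M p f : F1 Kbar M) : LaurentSeries Kbar)) *
        ∏ i ∈ Finset.range p.1, twistFun (ζ ^ i) (f : LaurentSeries Kbar) := by
  rw [np_apply, dp_apply]
  exact (heckePair M p).N_formula ζ hζ f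

theorem dp_mer (p : HK.GoodPrime M) (f : F1 Kbar M)
    (h1 : coeffMap iota ((dp M p f : F1 Kbar M) : LaurentSeries Kbar) ∈ MerQ)
    (h2 : coeffMap iota (f : LaurentSeries Kbar) ∈ MerQ) :
    PsiQ ⟨_, h1⟩ = compSL (HK.diaRep M p.unit) (PsiQ ⟨_, h2⟩) := by
  rw [← PsiQ_D p f]
  exact PsiQ_congr (by rw [dp_apply]) _ _

theorem np_gal (p : HK.GoodPrime M) (σ : GQ) (f : F1 Kbar M) :
    np M p (arithmeticRingAut (F1₀ M) σ f) = arithmeticRingAut (F1₀ M) σ (np M p f) := by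
  rw [np_apply, np_apply]
  exact (heckePair M p).N_conj p.2.1 σ f

theorem dp_gal (p : HK.GoodPrime M) (σ : GQ) (f : F1 Kbar M) :
    dp M p (arithmeticRingAut (F1₀ M) σ f) = arithmeticRingAut (F1₀ M) σ (dp M p f) := by
  rw [dp_apply, dp_apply]
  exact (heckePair M p).D_conj σ f

/-- The operators `N_p`, `⟨p⟩` on `F1 Kbar M`. -/
def ops1 : Ops1 M :=
  Ops1.mk (np M) (dp M) (np_pres M) (dp_pres M) (fun p _ => np_series M p) (dp_mer M) (np_gal M)
    (dp_gal M)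

theorem ops1_TV_mk (ℓ : ℕ) (p : HK.GoodPrime M) (u : kummerUnits Kbar (F1 Kbar M) ℓ) :
    (ops1 M).TV ℓ p (KV.mk u) = TV M ℓ p (KV.mk u) := by
  rw [Ops1.TV_mk, TV, HeckePair.T, KV.map_mk]
  rfl

theorem ops1_RV_mk (ℓ : ℕ) (p : HK.GoodPrime M) (u : kummerUnits Kbar (F1 Kbar M) ℓ) :
    (ops1 M).RV ℓ p (KV.mk u) = RV M ℓ p (KV.mk u) := by
  rw [Ops1.RV_mk, RV, HeckePair.R, KV.map_mk]
  rfl

theorem ops1_TV (ℓ : ℕ) (p : HK.GoodPrime M) (x : KV Kbar (F1 Kbar M) ℓ) :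
    (ops1 M).TV ℓ p x = TV M ℓ p x := by
  obtain ⟨u, rfl⟩ := KV.mk_surjective x
  exact ops1_TV_mk M ℓ p u

theorem ops1_RV (ℓ : ℕ) (p : HK.GoodPrime M) (x : KV Kbar (F1 Kbar M) ℓ) :
    (ops1 M).RV ℓ p x = RV M ℓ p x := by
  obtain ⟨u, rfl⟩ := KV.mk_surjective x
  exact ops1_RV_mk M ℓ p u

theorem ops1_arith (hinj : StmtInjFull M) (hfrac : StmtFracFull M) {ℓ : ℕ} (hℓ : ℓ.Prime) :
    (ops1 M).Arith ℓ where
  unram p hpℓ A hA σ hσ x := unram hinj hfrac hℓ p hpℓ A hA σ hσ x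
  ES p hpℓ A hA σ hσ x := by
    rw [ops1_TV, ops1_RV]
    exact ES hinj hfrac hℓ p hpℓ A hA σ hσ x

/-- **The contract of block ES1**, from the two contracts of block IGUSA1. -/
theorem stmtES1_of
    (hInj : ∀ (M : ℕ) [NeZero M], (4 ∣ M ∨ 9 ∣ M) → StmtInjFull M)
    (hFrac : ∀ (M : ℕ) [NeZero M], (4 ∣ M ∨ 9 ∣ M) → StmtFracFull M) : StmtES1 :=
  fun M _ hM _ => ⟨ops1 M, fun _ hℓ => ops1_arith M (hInj M hM) (hFrac M hM) hℓ⟩

end Fermat.Agent.S48.ES1
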