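import Fermat.Agent.S48.Full.ActGalois
import Fermat.Agent.S48.Full.Conc
import Fermat.Agent.S48.Full.G0
import Fermat.Agent.S48.Full.Union
import Fermat.Agent.GAL.Tors.HeckeMer
import Fermat.Agent.GAL.Hecke.HeckeBasic

/-!
# S48 / ES1 : the multiplicative Hecke operator for a general group `Γ` (definitions)

Generic layer on top of `S48/Full` (`GenSet ι Γ 1 S`, `FS K S = K(S) ⊆ K((q))`, width `h = 1`).

* `HeckeGrp Γ p σ` : the group theoretic input (`δ = diag(p,1)`, `σ` = representative of `⟨p⟩`):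
  `δ (Γ ∩ Γ₀(p)) δ⁻¹ ⊆ Γ` and, for every `i`, `σ δ γ_i = γ'_i [[1,i],[0,p]]` with `γ_i, γ'_i ∈ Γ`;
* `SP K p S = S ∪ {j(q), j(q^p)}` : generators of the function field of `Γ ∩ Γ₀(p)`.
-/

set_option autoImplicit false
set_option linter.unusedSectionVars false

open UpperHalfPlane ModularCurve AlgebraicCurve CongruenceSubgroup Matrix.SpecialLinearGroup
open scoped MatrixGroups Manifold

noncomputable section

namespace Fermat.Agent.S48.ES1

open Fermat.Agent.S24 Fermat.Agent.GAL Fermat.Agent.GAL.Tors Fermat.Agent.S48.Full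

/-- `δ (Γ ∩ Γ₀(p)) δ⁻¹ ⊆ Γ`, `δ = diag(p, 1)`. -/
def ConjDiag (Γ : Subgroup SL(2, ℤ)) (p : ℕ) : Prop :=
  ∀ γ ∈ Γ ⊓ Gamma0 p, ∃ γ' ∈ Γ, IsScale p γ γ'

/-- The group theoretic input for the Hecke correspondence `T_p` on `Γ`, with `⟨p⟩` represented by
`σ`. -/
structure HeckeGrp (Γ : Subgroup SL(2, ℤ)) (p : ℕ) (σ : SL(2, ℤ)) : Prop where
  conj : ConjDiag Γ p
  rep : ∀ i : ℕ, ∃ γ ∈ Γ, ∃ γ' ∈ Γ,
    mapGL ℝ σ * ModularForm.heckeDiagMatrix p * mapGL ℝ γ =
      mapGL ℝ γ' * ModularForm.heckeMatrix p i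

/-- `S ∪ {j(q^d) : d ∣ p}`. -/
def SP (K : Type) [Field K] (p : ℕ) [NeZero p] (S : Set (LaurentSeries K)) :
    Set (LaurentSeries K) :=
  S ∪ divisorExpansionsC K p

theorem FS_le_SP (K : Type) [Field K] (p : ℕ) [NeZero p] (S : Set (LaurentSeries K)) :
    FS K S ≤ FS K (SP K p S) :=
  IntermediateField.adjoin.mono K _ _ Set.subset_union_left

/-- `α` : the inclusion `K(S) → K(S, j(q^p))`. -/
def alpha (K : Type) [Field K] (p : ℕ) [NeZero p] (S : Set (LaurentSeries K)) :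
    FS K S →ₐ[K] FS K (SP K p S) :=
  IntermediateField.inclusion (FS_le_SP K p S)

theorem coe_alpha {K : Type} [Field K] (p : ℕ) [NeZero p] {S : Set (LaurentSeries K)}
    (x : FS K S) :
    ((alpha K p S x : FS K (SP K p S)) : LaurentSeries K) = (x : LaurentSeries K) :=
  IntermediateField.coe_inclusion (FS_le_SP K p S) x

end Fermat.Agent.S48.ES1
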