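import Fermat.Agent.S48.ES1.GenSetP

/-!
# S48 / ES1 leaf G4 : `α` is finite, `β₀` is integral, `N` preserves Kummer units

Port of `GAL/Hecke/Degree.lean` (`finiteAlong_alpha`, `finiteAlong_beta`) and of
`GAL/Hecke/HeckeBasic.heckeNormPreserves`:
* `alpha (H.jF) = (genSetP p H).jF` (`Subtype.ext rfl`-type), `(genSetP p H).finiteDimensional_jF`,
  `Hecke.finiteAlong_of_finiteDimensional (alpha K p S) H.jF`;
* `beta0 (H.jF)` is transcendental (`isAlgebraic_algHom_iff`, `H.transcendental_jF`), so
  `FS K (SP K p S)` is finite over `K(beta0 j)` (`S24.finiteDimensional_adjoin_of_transcendental`, used in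
  `GAL/Hecke/Degree.finiteAlong_beta`), `Hecke.finiteAlong_of_finiteDimensional`,
  `RingHom.IsIntegral.of_finite`;
* `Hecke.map_mem_kummerUnits` for `D` (surjective, hence finite) and `β₀`,
  `Hecke.normAlong_mem_kummerUnits` for `α` (`CharZero` from `H.GenDeg_charZero`).
-/

set_option autoImplicit false
set_option linter.unusedSectionVars false

open UpperHalfPlane ModularCurve AlgebraicCurve CongruenceSubgroup Matrix.SpecialLinearGroup
open scoped MatrixGroups Manifold

noncomputable section

namespace Fermat.Agent.S48.ES1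

open Fermat.Agent.S24 Fermat.Agent.GAL Fermat.Agent.GAL.Tors Fermat.Agent.S48.Full

variable {K : Type} [Field K] [IsAlgClosed K] {ι : K →+* ℂ} {Γ : Subgroup SL(2, ℤ)}
  [Γ.FiniteIndex] {S : Set (LaurentSeries K)} (p : ℕ) [NeZero p]

theorem finiteAlong_alpha (H : GenSet ι Γ 1 S) : FiniteAlong K (alpha K p S) := by
  have hj : alpha K p S H.jF = (genSetP p H).jF := Subtype.ext (coe_alpha p H.jF)
  have : FiniteDimensional (IntermediateField.adjoin K {alpha K p S H.jF}) (FS K (SP K p S)) := by
    rw [hj]
    exact (genSetP p H).finiteDimensional_jF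
  exact Hecke.finiteAlong_of_finiteDimensional (alpha K p S) H.jF

theorem integral_beta0 (H : GenSet ι Γ 1 S) (hconj : ConjDiag Γ p) :
    (beta0 p H hconj).toRingHom.IsIntegral := by
  have htr : Transcendental K (beta0 p H hconj H.jF) := by
    intro h
    exact H.transcendental_jF
      ((isAlgebraic_algHom_iff (beta0 p H hconj) (beta0 p H hconj).injective).mp h)
  have := (genSetP p H).finiteDimensional_jF
  have : FiniteDimensional (IntermediateField.adjoin K {beta0 p H hconj H.jF})
      (FS K (SP K p S)) :=
    finiteDimensional_adjoin_of_transcendental (genSetP p H).jF _ htr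
  exact RingHom.IsIntegral.of_finite
    (Hecke.finiteAlong_of_finiteDimensional (beta0 p H hconj) H.jF)

/-- **(G4)** `N` preserves Kummer units. -/
theorem normP_kummer (H : GenSet ι Γ 1 S) (hconj : ConjDiag Γ p) (D : FS K S ≃ₐ[K] FS K S)
    (m : ℕ) (u : (FS K S)ˣ) (hu : u ∈ kummerUnits K (FS K S) m) :
    Units.map (normP p H hconj D) u ∈ kummerUnits K (FS K S) m := by
  have : CharZero K := H.GenDeg_charZero
  have : CharZero (FS K S) := charZero_of_injective_algebraMap (algebraMap K (FS K S)).injective
  have hD : ((D : FS K S →ₐ[K] FS K S)).toRingHom.IsIntegral :=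
    RingHom.isIntegral_of_surjective _ D.surjective
  have h0 := Hecke.map_mem_kummerUnits (D : FS K S →ₐ[K] FS K S) hD hu
  have h1 := Hecke.map_mem_kummerUnits (beta0 p H hconj) (integral_beta0 p H hconj) h0
  have h2 := Hecke.normAlong_mem_kummerUnits (alpha K p S) (finiteAlong_alpha p H) h1
  intro P
  have h3 := h2 P
  rw [Units.coe_map] at h3 ⊢
  rw [Units.coe_map, Units.coe_map] at h3
  exact h3

end Fermat.Agent.S48.ES1
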