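import Fermat.Agent.S48.ES1.GenSetP

/-!
# S48 / ES1 leaf G5 : `α`, `β₀` in the field `Mer` of meromorphic functions on `ℍ`

* `PsiMer_alpha` : `Full.GenSet.ActGalois_PsiMer_eq (genSetP p H) H inf_le_left` (the two inclusions
  are equal: `Subtype.ext` / proof irrelevance).
* `PsiMer_beta0` : both sides are ring homomorphisms `K(S) → Mer`
  (`IsFractionRing.ringHom_ext (A := AS K S)`); for `a ∈ K[S]` : `beta0 a` is a good series for
  `Γ ⊓ Γ₀(p)` (`qExpand_mem_goodSub_inf`, `H.good_coe`), so `GenSet.PsiMer_of_good` computes the left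
  side, `GenSet.PsiMer_coe`, `compGL_ofHolo` the right one; compare pointwise with
  `PsiFun_qExpand_one` and `ModularForm.coe_heckeDiagMatrix_smul` (`heckeDiagMatrix p • τ = mulH p τ`).
-/

set_option autoImplicit false
set_option linter.unusedSectionVars false

open UpperHalfPlane ModularCurve AlgebraicCurve CongruenceSubgroup Matrix.SpecialLinearGroup
open scoped MatrixGroups Manifold

noncomputable section

namespace Fermat.Agent.S48.ES1

open Fermat.Agent.S24 Fermat.Agent.GAL Fermat.Agent.GAL.Tors Fermat.Agent.S48.Full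

variable {K : Type} [Field K] [IsAlgClosed K] {ι : K →+* ℂ} {Γ : Subgroup SL(2, ℤ)}
  [Γ.FiniteIndex] {S : Set (LaurentSeries K)} (p : ℕ) [NeZero p]

theorem PsiMer_alpha (H : GenSet ι Γ 1 S) (x : FS K S) :
    (genSetP p H).PsiMer (alpha K p S x) = H.PsiMer x :=
  (genSetP p H).ActGalois_PsiMer_eq H inf_le_left x

/-- **(G5)** -/
theorem PsiMer_beta0 (H : GenSet ι Γ 1 S) (hconj : ConjDiag Γ p) (x : FS K S) :
    (genSetP p H).PsiMer (beta0 p H hconj x) =
      compGL (ModularForm.heckeDiagMatrix p) (ModularForm.det_heckeDiagMatrix_pos p)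
        (H.PsiMer x) := by
  have hh : (genSetP p H).PsiMer.comp (beta0 p H hconj).toRingHom =
      (compGL (ModularForm.heckeDiagMatrix p) (ModularForm.det_heckeDiagMatrix_pos p)).comp
        H.PsiMer := by
    apply IsFractionRing.ringHom_ext (A := AS K S)
    intro a
    show (genSetP p H).PsiMer (beta0 p H hconj (a : FS K S)) =
      compGL _ _ (H.PsiMer (a : FS K S))
    have hgood : ((beta0 p H hconj (a : FS K S) : FS K (SP K p S)) : LaurentSeries K) ∈
        goodSub K ι (Γ ⊓ Gamma0 p) 1 := by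
      rw [coe_beta0]
      exact qExpand_mem_goodSub_inf p hconj (H.good_coe a)
    rw [(genSetP p H).PsiMer_of_good _ hgood, H.PsiMer_coe, compGL_ofHolo]
    congr 1
    apply Subtype.ext
    funext τ
    rw [holoComp_apply, H.PsiH_apply, H.PsiA_apply]
    show PsiFun ι 1 ((beta0 p H hconj (a : FS K S) : FS K (SP K p S)) : LaurentSeries K) τ = _
    rw [coe_beta0, PsiFun_qExpand_one]
    congr 1
    apply UpperHalfPlane.ext
    rw [coe_mulH, ModularForm.coe_heckeDiagMatrix_smul (NeZero.ne p)]
  exact RingHom.congr_fun hh x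

end Fermat.Agent.S48.ES1
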