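import Fermat.Agent.S48.ES1.GenGrp
import Fermat.Agent.S48.ES1.GenMer
import Fermat.Agent.S48.ES1.GenFin

/-!
# S48 / ES1 leaf G6b : the `p + 1` embeddings `K(S, j(q^p)) → Mer` over `K(S)`; `[.. : ..] = p + 1`

`emb H γ x = compSL (γ x) ∘ Ψ'`, `Ψ' = (genSetP p H).PsiMer`, `γ none = 1`, `γ (some i) = γ_i`.
* `mem_of_compSL_PsiMer` : generic; apply the hypothesis to the generators `s ∈ S`
  (`GenSet.PsiMer_coe`, `compSL_ofHolo_apply`, `ofHolo_injective`, `congrFun`) and use `H.sep`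
  (model: `Full.GenSet.mem_of_act_eq_one`).
* `emb_alpha` : `PsiMer_alpha`, `GenSet.compSL_PsiMer`.
* `emb_injective` : `emb x = emb y ⟹ compSL (γ x * (γ y)⁻¹)` fixes `Ψ'` (`compSL_mul`, `compSL_one`)
  `⟹ γ x * (γ y)⁻¹ ∈ Γ ⊓ Γ₀(p)`; conclude with `rep_eq`, `rep_not_mem` (for `(none, some i)` use the
  inverse: `(γ_i)⁻¹ ∈ Γ ⊓ Γ₀(p) ⟹ γ_i ∈ ..`).
* `finrankAlong_alpha` : `≤` : `GAL.DegreeAlpha.finrank_tower (alpha K p S) H.jF`, `GenSet.finrank_jF` for
  `H` and `genSetP p H`, `card_quot_inf_le`; `≥` : the `p + 1` distinct embeddings give `p + 1` distinct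
  `K(S)`-algebra maps into `AlgebraicClosure Mer` (as in the proof of
  `GAL.NormFormula.norm_eq_prod_of_embeddings`), and `AlgHom.card_le` / `AlgHom.card`.
-/

set_option autoImplicit false
set_option linter.unusedSectionVars false
set_option linter.style.haveILetI false

open UpperHalfPlane ModularCurve AlgebraicCurve CongruenceSubgroup Matrix.SpecialLinearGroup
open scoped MatrixGroups Manifold

noncomputable section

namespace Fermat.Agent.S48.ES1

open Fermat.Agent.S24 Fermat.Agent.GAL Fermat.Agent.GAL.Tors Fermat.Agent.S48.Full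

variable {K : Type} [Field K] [IsAlgClosed K] {ι : K →+* ℂ} {Γ : Subgroup SL(2, ℤ)}
  [Γ.FiniteIndex] {S : Set (LaurentSeries K)} {p : ℕ} [NeZero p]

omit [IsAlgClosed K] [Γ.FiniteIndex] in
theorem mem_of_compSL_PsiMer {h : ℕ} [NeZero h] (H : GenSet ι Γ h S) (g : SL(2, ℤ))
    (hg : ∀ x : FS K S, compSL g (H.PsiMer x) = H.PsiMer x) : g ∈ Γ := by
  refine H.sep g fun s hs τ => ?_
  have h1 := hg ((⟨⟨s, IntermediateField.subset_adjoin K S hs⟩, Algebra.subset_adjoin hs⟩ :
    AS K S) : FS K S)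
  rw [H.PsiMer_coe, compSL_ofHolo_apply] at h1
  have h2 := ofHolo_injective h1
  exact congrFun (congrArg Subtype.val h2) τ

/-- a system of representatives: `γ none = 1`, `σ δ γ_i = γ'_i A_i`. -/
structure IsRep (Γ : Subgroup SL(2, ℤ)) (p : ℕ) (σ : SL(2, ℤ))
    (γ : Option (Fin p) → SL(2, ℤ)) : Prop where
  none : γ none = 1
  mem : ∀ x, γ x ∈ Γ
  rel : ∀ i : Fin p, ∃ γ' ∈ Γ,
    mapGL ℝ σ * ModularForm.heckeDiagMatrix p * mapGL ℝ (γ (some i)) =
      mapGL ℝ γ' * ModularForm.heckeMatrix p i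

omit [NeZero p] [Γ.FiniteIndex] in
theorem HeckeGrp.exists_isRep {σ : SL(2, ℤ)} (hG : HeckeGrp Γ p σ) :
    ∃ γ : Option (Fin p) → SL(2, ℤ), IsRep Γ p σ γ := by
  choose g hg g' hg' hrel using hG.rep
  refine ⟨fun x => x.elim 1 (fun i => g i), rfl, fun x => ?_, fun i => ⟨g' i, hg' i, hrel i⟩⟩
  cases x with
  | none => exact Γ.one_mem
  | some i => exact hg i

/-- the embeddings. -/
def emb (H : GenSet ι Γ 1 S) (γ : Option (Fin p) → SL(2, ℤ)) (x : Option (Fin p)) :
    FS K (SP K p S) →+* Mer :=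
  (compSL (γ x)).comp (genSetP p H).PsiMer

theorem emb_alpha (H : GenSet ι Γ 1 S) {γ : Option (Fin p) → SL(2, ℤ)} (hγ : ∀ x, γ x ∈ Γ)
    (x : Option (Fin p)) (y : FS K S) : emb H γ x (alpha K p S y) = H.PsiMer y := by
  rw [emb, RingHom.comp_apply, PsiMer_alpha p H, H.compSL_PsiMer _ (hγ x)]

theorem emb_injective (hp : p.Prime) (H : GenSet ι Γ 1 S) {σ : SL(2, ℤ)} (hconj : ConjDiag Γ p)
    {γ : Option (Fin p) → SL(2, ℤ)} (hγ : IsRep Γ p σ γ) : Function.Injective (emb H γ) := by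
  intro x y hxy
  have key : γ x * (γ y)⁻¹ ∈ Γ ⊓ Gamma0 p := by
    refine mem_of_compSL_PsiMer (genSetP p H) _ fun z => ?_
    have h1 : compSL (γ x) ((genSetP p H).PsiMer z) = compSL (γ y) ((genSetP p H).PsiMer z) :=
      congrArg (fun f : FS K (SP K p S) →+* Mer => f z) hxy
    rw [compSL_mul, h1, ← compSL_mul, mul_inv_cancel, compSL_one]
  rcases x with _ | i <;> rcases y with _ | k
  · rfl
  · exfalso
    obtain ⟨γ', -, hrel⟩ := hγ.rel k
    rw [hγ.none, one_mul] at key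
    exact rep_not_mem hp.one_lt hconj σ hrel ((inv_mem_iff).1 key)
  · exfalso
    obtain ⟨γ', -, hrel⟩ := hγ.rel i
    rw [hγ.none, inv_one, mul_one] at key
    exact rep_not_mem hp.one_lt hconj σ hrel key
  · obtain ⟨γi', -, hreli⟩ := hγ.rel i
    obtain ⟨γk', -, hrelk⟩ := hγ.rel k
    have := rep_eq hp.one_lt hconj σ i.2 k.2 hreli hrelk key
    rw [Fin.ext this]

/-- **(G6b)** -/
theorem finrankAlong_alpha (hp : p.Prime) (H : GenSet ι Γ 1 S) {σ : SL(2, ℤ)}
    (hG : HeckeGrp Γ p σ) : finrankAlong K (alpha K p S) = p + 1 := by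
  obtain ⟨γ, hγ⟩ := hG.exists_isRep
  apply le_antisymm
  · have h1 := GAL.DegreeAlpha.finrank_tower (alpha K p S) H.jF
    have hj : alpha K p S H.jF = (genSetP p H).jF := Subtype.ext (coe_alpha p H.jF)
    rw [hj, H.finrank_jF, (genSetP p H).finrank_jF] at h1
    have h2 := card_quot_inf_le hp Γ
    rw [← h1] at h2
    have hpos : 0 < Nat.card (SL(2, ℤ) ⧸ Γ) := by
      rw [← H.finrank_jF]
      have := H.finiteDimensional_jF
      exact Module.finrank_pos
    exact Nat.le_of_mul_le_mul_left h2 hpos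
  · letI := algebraAlong (alpha K p S)
    haveI : FiniteDimensional (FS K S) (FS K (SP K p S)) := finiteAlong_alpha p H
    haveI : Module.Free (FS K S) (FS K (SP K p S)) := Module.Free.of_divisionRing _ _
    letI : Algebra (FS K S) Mer := H.PsiMer.toAlgebra
    let τ : Option (Fin p) → (FS K (SP K p S) →ₐ[FS K S] Mer) := fun x =>
      { emb H γ x with
        commutes' := fun y => emb_alpha H hγ.mem x y }
    have hτ : Function.Injective τ := by
      intro x y h
      apply emb_injective hp H hG.conj hγ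
      ext z
      exact congrArg (fun t : FS K (SP K p S) →ₐ[FS K S] Mer => t z) h
    have h3 := (Nat.card_le_card_of_injective τ hτ).trans
      (card_algHom_le_finrank (FS K S) (FS K (SP K p S)) Mer)
    rw [Nat.card_eq_fintype_card, Fintype.card_option, Fintype.card_fin] at h3
    exact h3

end Fermat.Agent.S48.ES1
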