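import Fermat.Agent.S48.ES1.GenDefs
import Fermat.Agent.Lib.Gamma0Count.Index

/-!
# S48 / ES1 leaf G6a : group theory of the coset representatives (pure `2 × 2` matrices)

`δ = heckeDiagMatrix p = diag(p,1)`, `A_i = heckeMatrix p i = [[1,i],[0,p]]`.
* `int_mul_heckeMatrix` : `G A_k = A_i` with `G ∈ SL₂(ℤ)` forces `i ≡ k (p)`: compare entries
  (`Matrix.GeneralLinearGroup.ext`-type: apply `congrArg (fun g => (g : Matrix _ _ ℝ) a b)`,
  `ModularForm.val_heckeMatrix`, `Matrix.mul_apply`, `Fin.sum_univ_two`): `G = [[1,b],[0,1]]`, `k + b p = i`.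
* `int_mul_heckeDiag` : `G δ = A_i` is impossible (`G 0 0 * p = 1`).
* `IsScale.heckeDiag_mul` : entrywise (`Matrix.GeneralLinearGroup.ext`/`Units.ext`, `Matrix.ext`, `fin_cases`,
  `ModularForm.val_heckeDiagMatrix`, `Matrix.mul_apply`, `Fin.sum_univ_two`; casts `ℤ → ℝ` of the four equations).
* `rep_eq` : if `γ_i γ_k⁻¹ ∈ Γ ∩ Γ₀(p)` then by `ConjDiag`: `δ γ_i γ_k⁻¹ = g' δ`, so
  `γ'_i A_i = σ δ γ_i = σ g' δ γ_k = (σ g' σ⁻¹) γ'_k A_k`.
* `index_inf_le` : `Subgroup.index_inf_le`, `Lib.Gamma0Count.card_coset_eq`,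
  `Lib.Gamma0Count.dedekindPsi_prime_mul_of_not_dvd hp one_ne_zero` (`dedekindPsi 1 = 1` by `decide`/`simp`).
-/

set_option autoImplicit false
set_option linter.unusedSectionVars false

open UpperHalfPlane ModularCurve AlgebraicCurve CongruenceSubgroup Matrix.SpecialLinearGroup
open scoped MatrixGroups Manifold

noncomputable section

namespace Fermat.Agent.S48.ES1

open Fermat.Agent.S48.Full

variable {p : ℕ}

theorem IsScale.heckeDiag_mul (hp : p ≠ 0) {γ γ' : SL(2, ℤ)} (h : IsScale p γ γ') :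
    ModularForm.heckeDiagMatrix p * mapGL ℝ γ = mapGL ℝ γ' * ModularForm.heckeDiagMatrix p := by
  obtain ⟨h1, h2, h3, h4⟩ := h
  have e1 := congrArg (Int.cast : ℤ → ℝ) h1
  have e2 := congrArg (Int.cast : ℤ → ℝ) h2
  have e3 := congrArg (Int.cast : ℤ → ℝ) h3
  have e4 := congrArg (Int.cast : ℤ → ℝ) h4
  push_cast at e1 e2 e3 e4
  ext i j
  fin_cases i <;> fin_cases j <;>
    simp [hp, Matrix.mul_apply, Fin.sum_univ_two]
  · rw [e1]; ring
  · rw [e2]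
  · rw [← e3]; ring
  · exact h4.symm

theorem int_mul_heckeMatrix (hp : p ≠ 0) (G : SL(2, ℤ)) {i k : ℕ}
    (h : mapGL ℝ G * ModularForm.heckeMatrix p k = ModularForm.heckeMatrix p i) :
    (p : ℤ) ∣ (i : ℤ) - k := by
  have h00 := congrArg (fun g : GL (Fin 2) ℝ => (g : Matrix (Fin 2) (Fin 2) ℝ) 0 0) h
  have h01 := congrArg (fun g : GL (Fin 2) ℝ => (g : Matrix (Fin 2) (Fin 2) ℝ) 0 1) h
  simp [hp, Matrix.mul_apply, Fin.sum_univ_two] at h00 h01
  refine ⟨G 0 1, ?_⟩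
  have : ((i : ℤ) - k : ℝ) = ((p : ℤ) * G 0 1 : ℝ) := by
    push_cast
    rw [← h01, h00]
    ring
  exact_mod_cast this

theorem int_mul_heckeDiag (hp : 1 < p) (G : SL(2, ℤ)) {i : ℕ}
    (h : mapGL ℝ G * ModularForm.heckeDiagMatrix p = ModularForm.heckeMatrix p i) : False := by
  have hp0 : p ≠ 0 := by omega
  have h00 := congrArg (fun g : GL (Fin 2) ℝ => (g : Matrix (Fin 2) (Fin 2) ℝ) 0 0) h
  simp [hp0, Matrix.mul_apply, Fin.sum_univ_two] at h00
  have h1 : G 0 0 * (p : ℤ) = 1 := by exact_mod_cast h00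
  have h2 : (p : ℤ) ∣ 1 := Dvd.intro_left _ h1
  have h3 := Int.le_of_dvd one_pos h2
  omega

/-- distinct `i, k < p` give distinct cosets of `Γ ∩ Γ₀(p)`. -/
theorem rep_eq {Γ : Subgroup SL(2, ℤ)} (hp : 1 < p) (hconj : ConjDiag Γ p) (σ : SL(2, ℤ))
    {i k : ℕ} (hi : i < p) (hk : k < p) {γi γk γi' γk' : SL(2, ℤ)}
    (hreli : mapGL ℝ σ * ModularForm.heckeDiagMatrix p * mapGL ℝ γi =
      mapGL ℝ γi' * ModularForm.heckeMatrix p i)
    (hrelk : mapGL ℝ σ * ModularForm.heckeDiagMatrix p * mapGL ℝ γk =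
      mapGL ℝ γk' * ModularForm.heckeMatrix p k)
    (h : γi * γk⁻¹ ∈ Γ ⊓ Gamma0 p) : i = k := by
  have hp0 : p ≠ 0 := by omega
  obtain ⟨g', -, hs⟩ := hconj _ h
  have h1 := IsScale.heckeDiag_mul hp0 hs
  rw [map_mul, map_inv] at h1
  have h2 : ModularForm.heckeDiagMatrix p * mapGL ℝ γi =
      mapGL ℝ g' * ModularForm.heckeDiagMatrix p * mapGL ℝ γk := by
    rw [← h1]
    group
  have h3 : mapGL ℝ (γi'⁻¹ * σ * g' * σ⁻¹ * γk') * ModularForm.heckeMatrix p k =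
      ModularForm.heckeMatrix p i := by
    have h4 : ModularForm.heckeMatrix p i =
        (mapGL ℝ γi')⁻¹ * (mapGL ℝ σ * ModularForm.heckeDiagMatrix p * mapGL ℝ γi) := by
      rw [hreli]; group
    have h5 : ModularForm.heckeMatrix p k =
        (mapGL ℝ γk')⁻¹ * (mapGL ℝ σ * ModularForm.heckeDiagMatrix p * mapGL ℝ γk) := by
      rw [hrelk]; group
    rw [h4, mul_assoc (mapGL ℝ σ), h2, h5]
    simp only [map_mul, map_inv]
    group
  obtain ⟨c, hc⟩ := int_mul_heckeMatrix hp0 _ h3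
  have hc0 : c = 0 := by
    by_contra hc0
    rcases lt_or_gt_of_ne hc0 with hneg | hpos
    · have : (p : ℤ) * c ≤ (p : ℤ) * (-1) :=
        mul_le_mul_of_nonneg_left (by omega) (by omega)
      omega
    · have : (p : ℤ) * 1 ≤ (p : ℤ) * c :=
        mul_le_mul_of_nonneg_left (by omega) (by omega)
      omega
  rw [hc0, mul_zero] at hc
  omega

/-- the representatives `γ_i` are not in `Γ₀(p)`. -/
theorem rep_not_mem {Γ : Subgroup SL(2, ℤ)} (hp : 1 < p) (hconj : ConjDiag Γ p) (σ : SL(2, ℤ))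
    {i : ℕ} {γi γi' : SL(2, ℤ)}
    (hreli : mapGL ℝ σ * ModularForm.heckeDiagMatrix p * mapGL ℝ γi =
      mapGL ℝ γi' * ModularForm.heckeMatrix p i) : γi ∉ Γ ⊓ Gamma0 p := by
  intro h
  have hp0 : p ≠ 0 := by omega
  obtain ⟨g', -, hs⟩ := hconj _ h
  have h1 := IsScale.heckeDiag_mul hp0 hs
  refine int_mul_heckeDiag hp (γi'⁻¹ * σ * g') (i := i) ?_
  have h4 : ModularForm.heckeMatrix p i =
      (mapGL ℝ γi')⁻¹ * (mapGL ℝ σ * ModularForm.heckeDiagMatrix p * mapGL ℝ γi) := by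
    rw [hreli]; group
  rw [h4, mul_assoc (mapGL ℝ σ), h1]
  simp only [map_mul, map_inv]
  group

theorem card_quot_inf_le (hp : p.Prime) (Γ : Subgroup SL(2, ℤ)) :
    Nat.card (SL(2, ℤ) ⧸ (Γ ⊓ Gamma0 p)) ≤ Nat.card (SL(2, ℤ) ⧸ Γ) * (p + 1) := by
  have : NeZero p := ⟨hp.ne_zero⟩
  have h1 : Nat.card (SL(2, ℤ) ⧸ Gamma0 p) = p + 1 := by
    rw [Lib.Gamma0Count.card_coset_eq]
    have := Lib.Gamma0Count.dedekindPsi_prime_mul_of_not_dvd hp one_ne_zero
      (by rw [Nat.dvd_one]; exact hp.one_lt.ne')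
    rwa [mul_one, ModularCurve.dedekindPsi_one, mul_one] at this
  have h2 : (Γ ⊓ Gamma0 p).index ≤ Γ.index * (Gamma0 p).index := Subgroup.index_inf_le
  rw [← h1]
  exact h2

end Fermat.Agent.S48.ES1
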