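import Fermat.Agent.S48.ES1.GenEmb

/-!
# S48 / ES1 leaf G6c : the norm formula in `Mer`

`Ψ(N x) = (Ψ x ∘ σ ∘ δ) ∏_{i<p} Ψ x ∘ A_i`.

Take `γ` from `hG.exists_isRep`.  `GAL.NormFormula.norm_eq_prod_of_embeddings` with
`F = FS K S`, `F' = FS K (SP K p S)`, algebra `algebraAlong (alpha K p S)`, `ψ = H.PsiMer`, `e = emb H γ`
(`emb_alpha`, `emb_injective`, `finrankAlong_alpha`, `finiteAlong_alpha`, `Fintype.card_option`,
`Fintype.card_fin`; `CharZero` from `H.GenDeg_charZero`; see the use in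
`GAL/Hecke/NormFormulaCore.qExpand_heckeNorm`).  Then `Fintype.prod_option`,
`Fin.prod_univ_eq_prod_range`, and for each factor (`y = D x`):
`emb none (β₀ y) = compSL 1 (compGL δ (Ψ y))` (`PsiMer_beta0`, `compSL_one`), `Ψ y = compSL σ (Ψ x)`;
`emb (some i) (β₀ y) = compSL γ_i (compGL δ (compSL σ (Ψ x))) = compGL (σ δ γ_i) (Ψ x)
  = compGL (γ'_i A_i) (Ψ x) = compGL A_i (compSL γ'_i (Ψ x)) = compGL A_i (Ψ x)`
(`compGL_compGL`, `compGL_congr`, `GenSet.compSL_PsiMer`; model: `step` in `GAL/Tors/HeckeMer.HasChar.hecke`).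
-/

set_option autoImplicit false
set_option linter.unusedSectionVars false

open UpperHalfPlane ModularCurve AlgebraicCurve CongruenceSubgroup Matrix.SpecialLinearGroup
open scoped MatrixGroups Manifold

noncomputable section

namespace Fermat.Agent.S48.ES1

open Fermat.Agent.S24 Fermat.Agent.GAL Fermat.Agent.GAL.Tors Fermat.Agent.S48.Full

variable {K : Type} [Field K] [IsAlgClosed K] {ι : K →+* ℂ} {Γ : Subgroup SL(2, ℤ)}
  [Γ.FiniteIndex] {S : Set (LaurentSeries K)} {p : ℕ} [NeZero p]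

/-- **(G6c)** the norm formula in `Mer`. -/
theorem PsiMer_normP (hp : p.Prime) (H : GenSet ι Γ 1 S) {σ : SL(2, ℤ)} (hG : HeckeGrp Γ p σ)
    (D : FS K S ≃ₐ[K] FS K S) (hD : ∀ x, H.PsiMer (D x) = compSL σ (H.PsiMer x)) (x : FS K S) :
    H.PsiMer (normP p H hG.conj D x) =
      compGL (ModularForm.heckeDiagMatrix p) (ModularForm.det_heckeDiagMatrix_pos p)
          (compSL σ (H.PsiMer x)) *
        ∏ i ∈ Finset.range p,
          compGL (ModularForm.heckeMatrix p i) (ModularForm.det_heckeMatrix_pos p i)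
            (H.PsiMer x) := by
  obtain ⟨γ, hγ⟩ := hG.exists_isRep
  have hchar : CharZero K := H.GenDeg_charZero
  have hcharF : CharZero (FS K S) := charZero_of_injective_algebraMap (algebraMap K (FS K S)).injective
  have key := @GAL.NormFormula.norm_eq_prod_of_embeddings (FS K S) (FS K (SP K p S)) Mer
    (Option (Fin p)) _ _ _ _ hcharF (algebraAlong (alpha K p S)) (finiteAlong_alpha p H)
    H.PsiMer (emb H γ) (fun o y => emb_alpha H hγ.mem o y) (emb_injective hp H hG.conj hγ)
    (by rw [Fintype.card_option, Fintype.card_fin]; exact (finrankAlong_alpha hp H hG).symm)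
    (beta0 p H hG.conj (D x))
  rw [normP_apply]
  refine key.trans ?_
  rw [Fintype.prod_option]
  congr 1
  · rw [emb, RingHom.comp_apply, hγ.none, compSL_one, PsiMer_beta0, hD]
  · rw [← Fin.prod_univ_eq_prod_range (fun i => compGL (ModularForm.heckeMatrix p i)
      (ModularForm.det_heckeMatrix_pos p i) (H.PsiMer x)) p]
    refine Finset.prod_congr rfl fun i _ => ?_
    obtain ⟨γ', hγ', hrel⟩ := hγ.rel i
    rw [emb, RingHom.comp_apply, PsiMer_beta0, hD]
    have hpos1 : 0 < (mapGL ℝ σ * ModularForm.heckeDiagMatrix p).det.val := by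
      rw [map_mul, Units.val_mul]
      exact mul_pos (det_mapGL_pos _) (ModularForm.det_heckeDiagMatrix_pos p)
    have hpos2 : 0 < (mapGL ℝ σ * ModularForm.heckeDiagMatrix p * mapGL ℝ (γ (some i))).det.val := by
      rw [map_mul, Units.val_mul]
      exact mul_pos hpos1 (det_mapGL_pos _)
    have hpos3 : 0 < (mapGL ℝ γ' * ModularForm.heckeMatrix p i).det.val := by
      rw [map_mul, Units.val_mul]
      exact mul_pos (det_mapGL_pos _) (ModularForm.det_heckeMatrix_pos p i)
    have e1 : compGL (ModularForm.heckeDiagMatrix p) (ModularForm.det_heckeDiagMatrix_pos p)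
        (compSL σ (H.PsiMer x)) = compGL (mapGL ℝ σ * ModularForm.heckeDiagMatrix p) hpos1
          (H.PsiMer x) := compGL_compGL _ _ _ _ hpos1 _
    have e2 : compSL (γ (some i)) (compGL (mapGL ℝ σ * ModularForm.heckeDiagMatrix p) hpos1
        (H.PsiMer x)) = compGL (mapGL ℝ σ * ModularForm.heckeDiagMatrix p * mapGL ℝ (γ (some i)))
          hpos2 (H.PsiMer x) := compGL_compGL _ _ _ _ hpos2 _
    have e3 : compGL (ModularForm.heckeMatrix p i) (ModularForm.det_heckeMatrix_pos p i)
        (compSL γ' (H.PsiMer x)) = compGL (mapGL ℝ γ' * ModularForm.heckeMatrix p i) hpos3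
          (H.PsiMer x) := compGL_compGL _ _ _ _ hpos3 _
    rw [e1, e2, compGL_congr hrel hpos2 hpos3, ← e3, H.compSL_PsiMer γ' hγ']

end Fermat.Agent.S48.ES1
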