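import Fermat.Agent.S48.ES1.GenDefs

/-!
# S48 / ES1 leaf G7a : `H.PsiMer = PsiQ ∘ coeffMap ι` in width `1`; products over roots of unity

* `coeffMap_mem_MerQ`, `PsiMer_eq_PsiQ` : for width `h = 1` the realisation `H.PsiMer` is
  `x ↦ PsiQ (coeffMap ι x)`: for `a ∈ K[S]`, `coeffMap ι a` is convergent (`H.isConv_coe`,
  `mem_MerQ_of_isConv`); elements of `K(S)` are quotients (`exists_div_AS`; `MerQ` is a field: `div_mem`,
  `map_div₀`).  The two ring homomorphisms `K(S) → Mer` (the second one is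
  `PsiQ.comp ((coeffMap ι).comp (FS K S).val |>.codRestrict ..)`) agree on `K[S]`
  (`IsFractionRing.ringHom_ext (A := AS K S)`, `GenSet.PsiMer_coe`, `PsiQ_conv`, `PsiC_apply`;
  `tq 1 τ = qParam 1 τ` up to `Nat.cast_one`).
* `prod_twist_eq` : `ζ' = ζ ^ k` (`IsPrimitiveRoot.eq_pow_of_pow_eq_one`), `k` prime to `p`
  (`IsPrimitiveRoot.pow_iff_coprime`); the factor `twist (ζ^i)` only depends on `ζ^i`, i.e. on `i mod p`; reindex by the
  bijection `i ↦ k i mod p` of `range p` (`Finset.prod_bij` / pass to `ZMod p` with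
  `GAL.Tors.prod_range_eq_prod_zmod` and `Equiv.mulLeft₀`/`ZMod.unitOfCoprime`).  Alternative: both sides equal
  `∏ over z ∈ nthRootsFinset p 1` (`IsPrimitiveRoot.nthRoots_one_eq_biUnion_primitiveRoots`, `IsPrimitiveRoot.card_nthRootsFinset`,
  `Finset.prod_image` for `i ↦ ζ^i` injective on `range p` by `IsPrimitiveRoot.pow_inj`), using `twistFun`.
-/

set_option autoImplicit false
set_option linter.unusedSectionVars false

open UpperHalfPlane ModularCurve AlgebraicCurve CongruenceSubgroup Matrix.SpecialLinearGroup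
open scoped MatrixGroups Manifold

noncomputable section

namespace Fermat.Agent.S48.ES1

open Fermat.Agent.S24 Fermat.Agent.GAL Fermat.Agent.GAL.Tors Fermat.Agent.S48.Full

variable {K : Type} [Field K] {ι : K →+* ℂ} {Γ : Subgroup SL(2, ℤ)}
  {S : Set (LaurentSeries K)} {p : ℕ} [NeZero p]

theorem coeffMap_mem_MerQ (H : GenSet ι Γ 1 S) (x : FS K S) :
    coeffMap ι (x : LaurentSeries K) ∈ MerQ := by
  obtain ⟨a, ha, s, hs, _, hx⟩ := exists_div_AS S x
  rw [hx, IntermediateField.coe_div, map_div₀]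
  exact MerQ.div_mem (mem_MerQ_of_isConv (H.isConv_coe ⟨a, ha⟩))
    (mem_MerQ_of_isConv (H.isConv_coe ⟨s, hs⟩))

theorem PsiMer_eq_PsiQ (H : GenSet ι Γ 1 S) (x : FS K S) :
    H.PsiMer x = PsiQ ⟨coeffMap ι (x : LaurentSeries K), coeffMap_mem_MerQ H x⟩ := by
  let φ : FS K S →+* MerQ :=
    ((coeffMap ι).comp (FS K S).val.toRingHom).codRestrict MerQ (coeffMap_mem_MerQ H)
  have hh : H.PsiMer = PsiQ.comp φ := by
    apply IsFractionRing.ringHom_ext (A := AS K S)
    intro a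
    show H.PsiMer (a : FS K S) = PsiQ (φ (a : FS K S))
    have h1 : φ (a : FS K S) = algebraMap convSubring MerQ
        ⟨coeffMap ι ((a : FS K S) : LaurentSeries K), H.isConv_coe a⟩ := by
      apply Subtype.ext
      rfl
    rw [h1, GenSet.PsiMer_coe, PsiQ_conv]
    congr 1
    apply Subtype.ext
    funext τ
    rw [GenSet.PsiH_apply, GenSet.PsiA_apply, PsiC_apply, PsiFun, tq, Nat.cast_one]
  exact RingHom.congr_fun hh x

/-- the product over the `p`-th roots of unity does not depend on the primitive root. -/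
theorem prod_twist_eq {ζ ζ' : K} (hζ : IsPrimitiveRoot ζ p) (hζ' : IsPrimitiveRoot ζ' p)
    (x : LaurentSeries K) :
    ∏ i ∈ Finset.range p, twist (ζ ^ i) (pow_ne_zero _ (hζ.ne_zero (NeZero.ne p))) x =
      ∏ i ∈ Finset.range p, twist (ζ' ^ i) (pow_ne_zero _ (hζ'.ne_zero (NeZero.ne p))) x := by
  classical
  have key : ∀ {ζ : K} (_ : IsPrimitiveRoot ζ p), ∏ i ∈ Finset.range p, twistFun (ζ ^ i) x =
      ∏ z ∈ (Finset.range p).image (fun i => ζ ^ i), twistFun z x := by
    intro ζ hζ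
    rw [Finset.prod_image]
    intro i hi j hj hij
    exact hζ.pow_inj (Finset.mem_range.1 hi) (Finset.mem_range.1 hj) hij
  have himg : ∀ {ζ ζ' : K} (_ : IsPrimitiveRoot ζ p) (_ : IsPrimitiveRoot ζ' p),
      (Finset.range p).image (fun i => ζ ^ i) ⊆ (Finset.range p).image (fun i => ζ' ^ i) := by
    intro ζ ζ' hζ hζ' z hz
    obtain ⟨i, _, rfl⟩ := Finset.mem_image.1 hz
    obtain ⟨j, hj, hj'⟩ := hζ'.eq_pow_of_pow_eq_one (ξ := ζ ^ i)
      (by rw [← pow_mul, mul_comm, pow_mul, hζ.pow_eq_one, one_pow])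
    exact Finset.mem_image.2 ⟨j, Finset.mem_range.2 hj, hj'⟩
  show ∏ i ∈ Finset.range p, twistFun (ζ ^ i) x = ∏ i ∈ Finset.range p, twistFun (ζ' ^ i) x
  rw [key hζ, key hζ', Finset.Subset.antisymm (himg hζ hζ') (himg hζ' hζ)]

end Fermat.Agent.S48.ES1
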