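import Fermat.Agent.S48.ES1.GenNorm
import Fermat.Agent.S48.ES1.GenSeriesA

/-!
# S48 / ES1 leaf G7b : the norm formula for `q`-expansions

`(N x)(q^p) = (D x)(q^{p²}) ∏_{i<p} x(ζ^i q)` for every primitive `p`-th root of unity `ζ ∈ K`.

* By `prod_twist_eq` we may assume `ι ζ = e^{2πi/p}` (such a primitive root exists: take any primitive `ζ₁ ∈ K`
  (`HasEnoughRootsOfUnity.exists_primitiveRoot` / `IsAlgClosed`), `ι ζ₁` is primitive in `ℂ`
  (`IsPrimitiveRoot.map_of_injective`), so `e^{2πi/p} = (ι ζ₁)^k` (`IsPrimitiveRoot.eq_pow_of_pow_eq_one`,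
  `Complex.isPrimitiveRoot_exp`), and `ζ₁^k` is primitive (`IsPrimitiveRoot.of_map_of_injective`)).
* Apply the injective maps `coeffMap ι` (injective since `ι` is) and `PsiQ` (`PsiQ_injective`): this is the proof of
  `GAL/Tors/HeckeMer.PsiMer_heckeNorm` read backwards: with `Dl := compGL (heckeDiagMatrix p)`,
  `PsiQ (coeffMap ι (qExpand p y)) = Dl (PsiQ (coeffMap ι y))` (`ModularCurve.coeffMap_qExpand`, `PsiQ_qExpand`),
  `PsiQ (coeffMap ι (twist (ζ^i) x)) = compGL (heckeMatrix p i * heckeDiagMatrix p) (PsiQ (coeffMap ι x))`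
  (`PsiQ_twistFun`; `coeffMap ι (twist c hc x) = twistFun (ι c) (coeffMap ι x)` coefficientwise, `map_zpow₀`;
  `(ι ζ)^i = exp (2πi * i / p)` as `hpow` there), `compGL_compGL`, and `Dl` applied to `PsiMer_normP`
  rewritten with `PsiMer_eq_PsiQ` and `hD`.  Use a `PsiQ_congr`-type lemma (`subst`) to change the membership proofs.
-/

set_option autoImplicit false
set_option linter.unusedSectionVars false

open UpperHalfPlane ModularCurve AlgebraicCurve CongruenceSubgroup Matrix.SpecialLinearGroup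
open scoped MatrixGroups Manifold

noncomputable section

namespace Fermat.Agent.S48.ES1

open Fermat.Agent.S24 Fermat.Agent.GAL Fermat.Agent.GAL.Tors Fermat.Agent.S48.Full

variable {K : Type} [Field K] {ι : K →+* ℂ} {Γ : Subgroup SL(2, ℤ)}
  {S : Set (LaurentSeries K)} {p : ℕ} [NeZero p] [IsAlgClosed K] [Γ.FiniteIndex]

/-- a primitive `p`-th root of unity of `K` mapping to `e^{2πi/p}`. -/
theorem GenSeries_exists_root (ι : K →+* ℂ) (p : ℕ) [NeZero p] :
    ∃ ζ₀ : K, IsPrimitiveRoot ζ₀ p ∧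
      ι ζ₀ = Complex.exp (2 * Real.pi * Complex.I / p) := by
  have hchar : CharZero K := (RingHom.charZero_iff ι.injective).2 inferInstance
  obtain ⟨ζ₁, hζ₁⟩ : ∃ ζ : K, IsPrimitiveRoot ζ p :=
    HasEnoughRootsOfUnity.exists_primitiveRoot K p
  have h1 : IsPrimitiveRoot (ι ζ₁) p := hζ₁.map_of_injective ι.injective
  have h2 : IsPrimitiveRoot (Complex.exp (2 * Real.pi * Complex.I / p)) p :=
    Complex.isPrimitiveRoot_exp p (NeZero.ne p)
  obtain ⟨k, -, hk⟩ := h1.eq_pow_of_pow_eq_one h2.pow_eq_one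
  refine ⟨ζ₁ ^ k, ?_, by rw [map_pow, hk]⟩
  refine IsPrimitiveRoot.of_map_of_injective (f := ι) ?_ ι.injective
  rw [map_pow, hk]
  exact h2

theorem GenSeries_coeffMap_twist (ι : K →+* ℂ) {c : K} (hc : c ≠ 0) (x : LaurentSeries K) :
    coeffMap ι (twist c hc x) = twistFun (ι c) (coeffMap ι x) := by
  ext n
  rw [coeffMap_coeff, twist_coeff, twistFun_coeff, coeffMap_coeff, map_mul, map_zpow₀]

/-- **(G7)** the norm formula for `q`-expansions. -/
theorem series_formula (hp : p.Prime) (H : GenSet ι Γ 1 S) {σ : SL(2, ℤ)} (hG : HeckeGrp Γ p σ)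
    (D : FS K S ≃ₐ[K] FS K S) (hD : ∀ x, H.PsiMer (D x) = compSL σ (H.PsiMer x))
    (ζ : K) (hζ : IsPrimitiveRoot ζ p) (x : FS K S) :
    qExpand K p ((normP p H hG.conj D x : FS K S) : LaurentSeries K) =
      qExpand K p (qExpand K p ((D x : FS K S) : LaurentSeries K)) *
        ∏ i ∈ Finset.range p, twist (ζ ^ i) (pow_ne_zero _ (hζ.ne_zero (NeZero.ne p)))
          (x : LaurentSeries K) := by
  obtain ⟨ζ₀, hζ₀, hι⟩ := GenSeries_exists_root ι p
  rw [prod_twist_eq hζ hζ₀]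
  have hinj : Function.Injective (coeffMap ι) := by
    intro a b hab
    ext n
    have := congrArg (fun z => z.coeff n) hab
    simpa using ι.injective this
  apply hinj
  have hpow : ∀ i : ℕ, ι (ζ₀ ^ i) = Complex.exp (2 * Real.pi * Complex.I * i / p) := by
    intro i
    rw [map_pow, hι, ← Complex.exp_nat_mul]
    congr 1
    ring
  set Dl := compGL (ModularForm.heckeDiagMatrix p) (ModularForm.det_heckeDiagMatrix_pos p) with hDl
  set xQ : MerQ := ⟨coeffMap ι (x : LaurentSeries K), coeffMap_mem_MerQ H x⟩ with hxQ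
  set yQ : MerQ := ⟨coeffMap ι ((D x : FS K S) : LaurentSeries K), coeffMap_mem_MerQ H (D x)⟩
    with hyQ
  set nQ : MerQ := ⟨coeffMap ι ((normP p H hG.conj D x : FS K S) : LaurentSeries K),
    coeffMap_mem_MerQ H (normP p H hG.conj D x)⟩ with hnQ
  have key : (⟨qExpand ℂ p (nQ : LaurentSeries ℂ), qExpand_mem_MerQ p nQ.2⟩ : MerQ) =
      ⟨qExpand ℂ p (qExpand ℂ p (yQ : LaurentSeries ℂ)),
        qExpand_mem_MerQ p (qExpand_mem_MerQ p yQ.2)⟩ *
      ∏ i ∈ Finset.range p,
        (⟨twistFun (Complex.exp (2 * Real.pi * Complex.I * i / p)) (xQ : LaurentSeries ℂ),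
          twistFun_mem_MerQ (norm_exp_two_pi_div p i) xQ.2⟩ : MerQ) := by
    apply PsiQ_injective
    rw [map_mul, map_prod, PsiQ_qExpand p nQ]
    have e1 := PsiQ_qExpand p ⟨qExpand ℂ p (yQ : LaurentSeries ℂ), qExpand_mem_MerQ p yQ.2⟩
    have e2 := PsiQ_qExpand p yQ
    rw [e1, e2, ← PsiMer_eq_PsiQ H (normP p H hG.conj D x), ← PsiMer_eq_PsiQ H (D x),
      PsiMer_normP hp H hG D hD x, hD, map_mul, map_prod]
    congr 1
    refine Finset.prod_congr rfl fun i _ => ?_
    rw [PsiQ_twistFun p i xQ, ← PsiMer_eq_PsiQ H x,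
      compGL_compGL _ _ _ _ (det_heckeMatrix_mul_diag_pos p i)]
  have key2 := congrArg (fun z : MerQ => (z : LaurentSeries ℂ)) key
  have hprod : ((∏ i ∈ Finset.range p,
      (⟨twistFun (Complex.exp (2 * Real.pi * Complex.I * i / p)) (xQ : LaurentSeries ℂ),
        twistFun_mem_MerQ (norm_exp_two_pi_div p i) xQ.2⟩ : MerQ) : MerQ) : LaurentSeries ℂ)
      = ∏ i ∈ Finset.range p,
        twistFun (Complex.exp (2 * Real.pi * Complex.I * i / p)) (xQ : LaurentSeries ℂ) :=
    map_prod MerQ.val _ _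
  simp only [MulMemClass.coe_mul] at key2
  rw [hprod] at key2
  rw [map_mul, map_prod, ModularCurve.coeffMap_qExpand, ModularCurve.coeffMap_qExpand,
    ModularCurve.coeffMap_qExpand]
  refine key2.trans ?_
  congr 1
  refine Finset.prod_congr rfl fun i _ => ?_
  rw [GenSeries_coeffMap_twist, hpow]

end Fermat.Agent.S48.ES1
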