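import Fermat.Agent.S48.ES1.GenDefs

/-!
# S48 / ES1 (G1, G2) : `S ∪ {j(q^p)}` generates the field of `Γ ∩ Γ₀(p)`; the maps `β₀`, `N`

No `sorry`.
-/

set_option autoImplicit false
set_option linter.unusedSectionVars false

open UpperHalfPlane ModularCurve AlgebraicCurve CongruenceSubgroup Matrix.SpecialLinearGroup
open scoped MatrixGroups Manifold

noncomputable section

namespace Fermat.Agent.S48.ES1

open Fermat.Agent.S24 Fermat.Agent.GAL Fermat.Agent.GAL.Tors Fermat.Agent.S48.Full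

variable {K : Type} [Field K] {ι : K →+* ℂ} {Γ : Subgroup SL(2, ℤ)} {S : Set (LaurentSeries K)}
  (p : ℕ) [NeZero p]

theorem goodSub_congr_width {h h' : ℕ} [NeZero h] [NeZero h'] (e : h = h') {a : LaurentSeries K}
    (ha : a ∈ goodSub K ι Γ h) : a ∈ goodSub K ι Γ h' := by
  subst e; exact ha

theorem PsiFun_qExpand_one (a : LaurentSeries K) (τ : ℍ) :
    PsiFun ι 1 (qExpand K p a) τ = PsiFun ι 1 a (mulH p τ) := by
  rw [← PsiFun_mulH ι p (qExpand K p a) τ]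
  have h := PsiFun_qExpand ι 1 p a (mulH p τ)
  have e : ∀ (h h' : ℕ) [NeZero h] [NeZero h'] (_ : h = h') (b : LaurentSeries K) (τ : ℍ),
      PsiFun ι h b τ = PsiFun ι h' b τ := by
    intro h h' _ _ e b τ
    subst e; rfl
  rw [← h]
  exact e _ _ (one_mul p).symm _ _

/-- **(G1)** `a(q) ↦ a(q^p)` maps good series for `Γ` to good series for `Γ ∩ Γ₀(p)`. -/
theorem qExpand_mem_goodSub_inf (hconj : ConjDiag Γ p) {a : LaurentSeries K}
    (ha : a ∈ goodSub K ι Γ 1) : qExpand K p a ∈ goodSub K ι (Γ ⊓ Gamma0 p) 1 :=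
  goodSub_scale (h := p) hconj
    (goodSub_congr_width (one_mul p) (qExpand_mem_goodSub ι Γ 1 p ha))

/-- **(G2)** -/
theorem genSetP (H : GenSet ι Γ 1 S) : GenSet ι (Γ ⊓ Gamma0 p) 1 (SP K p S) :=
  H.union (genSet_Gamma0 ι p)

/-- `x(q) ∈ K(S) ⟹ x(q^p) ∈ K(S, j(q^p))`. -/
theorem qExpand_mem_FS_SP [Γ.FiniteIndex] [IsAlgClosed K] (H : GenSet ι Γ 1 S)
    (hconj : ConjDiag Γ p) {x : LaurentSeries K} (hx : x ∈ FS K S) :
    qExpand K p x ∈ FS K (SP K p S) := by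
  have hle : (FS K S).map (qExpandAlgHomC K p) ≤ FS K (SP K p S) := by
    rw [FS, IntermediateField.adjoin_map, IntermediateField.adjoin_le_iff]
    rintro _ ⟨s, hs, rfl⟩
    exact (genSetP p H).goodSub_le (qExpand_mem_goodSub_inf p hconj (H.good hs))
  exact hle ⟨x, hx, rfl⟩

/-- `β₀ : x(q) ↦ x(q^p)`. -/
def beta0 [Γ.FiniteIndex] [IsAlgClosed K] (H : GenSet ι Γ 1 S) (hconj : ConjDiag Γ p) :
    FS K S →ₐ[K] FS K (SP K p S) :=
  ((qExpandAlgHomC K p).comp (FS K S).val).codRestrict (FS K (SP K p S)).toSubalgebra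
    (fun x => qExpand_mem_FS_SP p H hconj x.2)

theorem coe_beta0 [Γ.FiniteIndex] [IsAlgClosed K] (H : GenSet ι Γ 1 S) (hconj : ConjDiag Γ p)
    (x : FS K S) :
    ((beta0 p H hconj x : FS K (SP K p S)) : LaurentSeries K) =
      qExpand K p (x : LaurentSeries K) := rfl

/-- `N = Norm_α ∘ β₀ ∘ D`. -/
def normP [Γ.FiniteIndex] [IsAlgClosed K] (H : GenSet ι Γ 1 S) (hconj : ConjDiag Γ p)
    (D : FS K S ≃ₐ[K] FS K S) : FS K S →* FS K S :=
  (normAlong (alpha K p S)).comp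
    ((((beta0 p H hconj).comp (D : FS K S →ₐ[K] FS K S)) : FS K S →+* FS K (SP K p S)) : _ →* _)

theorem normP_apply [Γ.FiniteIndex] [IsAlgClosed K] (H : GenSet ι Γ 1 S) (hconj : ConjDiag Γ p)
    (D : FS K S ≃ₐ[K] FS K S) (x : FS K S) :
    normP p H hconj D x = normAlong (alpha K p S) (beta0 p H hconj (D x)) := rfl

end Fermat.Agent.S48.ES1
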